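/-
P4 / Layer C3 (second inequality): basic definitions.

* `normIdeles K L G`   : the subgroup `N_{L/K} J_L` of the finite ideles of `K`;
* `normSubgroup K L G` : `Kˣ · N_{L/K} J_L`;
* `SL.normGroup q K L G`, `SL.normUnitGroup q K L G` : the semi-local norm groups at the rational
  prime `q` (norms of units of `ℚ_q ⊗ L`, resp. of integral units);
* `FirstInequality p`  : the statement `Kˣ · N J_L ≠ J_K` for all cyclic extensions of number
  fields of degree `p` (to be discharged by C2).
-/
import Fermat.Agent.Lib.CFT.Global.Invariants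

set_option autoImplicit false
set_option linter.style.haveILetI false

open scoped TensorProduct

namespace Fermat.Agent.CFT.Global

noncomputable section

section Norm

variable {M : Type*} [CommGroup M] (G : Type*) [Group G] [Finite G] [MulDistribMulAction G M]

/-- the norm `x ↦ ∏ g, g • x` as a homomorphism -/
def normProd : M →* M where
  toFun x := ∏ᶠ g : G, g • x
  map_one' := by simp
  map_mul' x y := by
    simp only [smul_mul']
    exact finprod_mul_distrib (Set.toFinite _) (Set.toFinite _)

lemma normProd_apply (x : M) : normProd G x = ∏ᶠ g : G, g • x := rfl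

lemma smul_normProd (h : G) (x : M) : h • normProd G x = normProd G x := by
  classical
  letI := Fintype.ofFinite G
  rw [normProd_apply, finprod_eq_prod_of_fintype, Finset.smul_prod']
  simp only [← mul_smul]
  exact Fintype.prod_equiv (Equiv.mulLeft h) _ _ (fun g => rfl)

lemma normProd_smul (h : G) (x : M) : normProd G (h • x) = normProd G x := by
  classical
  letI := Fintype.ofFinite G
  rw [normProd_apply, normProd_apply, finprod_eq_prod_of_fintype, finprod_eq_prod_of_fintype]
  simp only [← mul_smul]
  exact Fintype.prod_equiv (Equiv.mulRight h) _ _ (fun g => rfl)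

/-- the norm of an invariant element is its `|G|`-th power -/
lemma normProd_of_forall_smul_eq {x : M} (hx : ∀ g : G, g • x = x) :
    normProd G x = x ^ Nat.card G := by
  classical
  letI := Fintype.ofFinite G
  rw [normProd_apply, finprod_eq_prod_of_fintype]
  simp only [hx, Finset.prod_const, Finset.card_univ, Nat.card_eq_fintype_card]

end Norm

section Defs

variable (K L : Type) [Field K] [NumberField K] [Field L] [NumberField L] [Algebra K L]
  (G : Type) [Group G] [Finite G] [MulSemiringAction G L]

/-- the semi-local norm group: the elements of `(ℚ_q ⊗ K)ˣ` which are norms from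
`(ℚ_q ⊗ L)ˣ` -/
def SL.normGroup (q : ℕ) [Fact q.Prime] : Subgroup (SL q K)ˣ :=
  ((normProd G : (SL q L)ˣ →* (SL q L)ˣ).range).comap (SL.unitsMap q (algebraMap K L))

/-- the semi-local unit norm group: the elements of `(ℚ_q ⊗ K)ˣ` which are norms of integral
units of `ℚ_q ⊗ L` -/
def SL.normUnitGroup (q : ℕ) [Fact q.Prime] : Subgroup (SL q K)ˣ :=
  ((SL.unitGroup q L).map (normProd G : (SL q L)ˣ →* (SL q L)ˣ)).comap
    (SL.unitsMap q (algebraMap K L))

variable {K L G}

lemma SL.mem_normGroup_iff {q : ℕ} [Fact q.Prime] {u : (SL q K)ˣ} :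
    u ∈ SL.normGroup K L G q ↔
      ∃ x : (SL q L)ˣ, normProd G x = SL.unitsMap q (algebraMap K L) u := Iff.rfl

lemma SL.mem_normUnitGroup_iff {q : ℕ} [Fact q.Prime] {u : (SL q K)ˣ} :
    u ∈ SL.normUnitGroup K L G q ↔
      ∃ x ∈ SL.unitGroup q L, normProd G x = SL.unitsMap q (algebraMap K L) u := Iff.rfl

lemma SL.normUnitGroup_le_normGroup (q : ℕ) [Fact q.Prime] :
    SL.normUnitGroup K L G q ≤ SL.normGroup K L G q := by
  rintro u ⟨x, -, hx⟩
  exact ⟨x, hx⟩

variable (K L G)

/-- the group of norms of ideles `N_{L/K} J_L ⊆ J_K` -/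
def normIdeles : Subgroup (FinIdele K) :=
  ((normProd G : FinIdele L →* FinIdele L).range).comap (FinIdele.map (algebraMap K L))

/-- `Kˣ · N_{L/K} J_L` -/
def normSubgroup : Subgroup (FinIdele K) := (FinIdele.princ K).range ⊔ normIdeles K L G

variable {K L G}

lemma mem_normIdeles_iff {y : FinIdele K} :
    y ∈ normIdeles K L G ↔
      ∃ x : FinIdele L, normProd G x = FinIdele.map (algebraMap K L) y := Iff.rfl

lemma mem_normIdeles_iff' {y : FinIdele K} :
    y ∈ normIdeles K L G ↔
      ∃ x : FinIdele L, FinIdele.map (algebraMap K L) y = ∏ᶠ g : G, g • x := by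
  rw [mem_normIdeles_iff]
  exact exists_congr fun x => eq_comm

lemma mem_normSubgroup_iff {y : FinIdele K} :
    y ∈ normSubgroup K L G ↔ ∃ a : Kˣ, ∃ z ∈ normIdeles K L G, FinIdele.princ K a * z = y := by
  rw [normSubgroup, Subgroup.mem_sup]
  constructor
  · rintro ⟨_, ⟨a, rfl⟩, z, hz, h⟩
    exact ⟨a, z, hz, h⟩
  · rintro ⟨a, z, hz, h⟩
    exact ⟨_, ⟨a, rfl⟩, z, hz, h⟩

lemma princ_mem_normSubgroup (a : Kˣ) : FinIdele.princ K a ∈ normSubgroup K L G :=
  Subgroup.mem_sup_left ⟨a, rfl⟩

lemma normIdeles_le_normSubgroup : normIdeles K L G ≤ normSubgroup K L G := le_sup_right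

lemma FinIdele.comp_normProd (q : Nat.Primes) (x : FinIdele L) :
    FinIdele.comp q (normProd G x) = normProd G (FinIdele.comp q x) := by
  classical
  letI := Fintype.ofFinite G
  rw [normProd_apply, normProd_apply, finprod_eq_prod_of_fintype, finprod_eq_prod_of_fintype,
    map_prod]
  exact Finset.prod_congr rfl fun g _ => FinIdele.comp_smul q g x

/-- **Assembly of local norms**: an idele all of whose components are semi-local norms, and almost
all of whose components are norms of integral units, is a norm. -/
theorem mem_normIdeles_of_forall {y : FinIdele K}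
    (h1 : ∀ q : Nat.Primes, FinIdele.comp q y ∈ SL.normGroup K L G (q : ℕ))
    (h2 : {q : Nat.Primes | FinIdele.comp q y ∉ SL.normUnitGroup K L G (q : ℕ)}.Finite) :
    y ∈ normIdeles K L G := by
  classical
  have h : ∀ q : Nat.Primes, ∃ x : (SL (q : ℕ) L)ˣ,
      normProd G x = SL.unitsMap (q : ℕ) (algebraMap K L) (FinIdele.comp q y) ∧
        (FinIdele.comp q y ∈ SL.normUnitGroup K L G (q : ℕ) → x ∈ SL.unitGroup (q : ℕ) L) := by
    intro q
    by_cases hq : FinIdele.comp q y ∈ SL.normUnitGroup K L G (q : ℕ)
    · obtain ⟨x, hx, hxy⟩ := hq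
      exact ⟨x, hxy, fun _ => hx⟩
    · obtain ⟨x, hx⟩ := h1 q
      exact ⟨x, hx, fun h' => absurd h' hq⟩
  choose x hx hxu using h
  refine ⟨FinIdele.mk x (h2.subset fun q hq h' => hq (hxu q h')), ?_⟩
  ext q
  rw [FinIdele.comp_normProd, FinIdele.comp_mk, hx q, FinIdele.comp_map]

end Defs

/-- **The first inequality** (in the weak form `Kˣ · N J_L ≠ J_K`) for all cyclic extensions of
number fields of degree `p`.  This is what C3 needs from C2. -/
def FirstInequality (p : ℕ) : Prop :=
  ∀ (K L : Type) [Field K] [NumberField K] [Field L] [NumberField L] [Algebra K L]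
    (G : Type) [Group G] [Finite G] [MulSemiringAction G L] [IsGaloisGroup G K L],
    Nat.card G = p → normSubgroup K L G ≠ ⊤

end

end Fermat.Agent.CFT.Global
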