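/-
P4 / Layer C3 (second inequality): components of semi-local units at the places.

* relation of `SL.unitsProj`, `SL.unitsSingle` (helper3, `Induced.lean`) with `SL.projOn`;
* behaviour of `SL.projOn` under field extensions: `SL.unitsMap_projOn`;
* `Place.over f w` : the places of `L` above the place `w` of `K`.
-/
import Fermat.Agent.Lib.CFT.Global.Support
import Fermat.Agent.Lib.CFT.Global.Dictionary
import Fermat.Agent.Lib.CFT.Global.Induced

set_option autoImplicit false
set_option linter.style.haveILetI false
set_option linter.unusedSectionVars false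
set_option linter.unusedDecidableInType false
set_option linter.unusedFintypeInType false

open scoped TensorProduct

namespace Fermat.Agent.CFT.Global

open Fermat.Agent.CFT.Local

noncomputable section

section Proj

variable {q : ℕ} [Fact q.Prime] {K : Type} [Field K] [NumberField K]

lemma SL.unitsProj_unitsIncl (w : Place q K) (x : Kˣ) :
    SL.unitsProj w (SL.unitsIncl q K x) = Kv.unitsEmb w x := rfl

variable [DecidableEq (Place q K)]

lemma SL.unitsProj_projOn (T : Finset (Place q K)) (u : (SL q K)ˣ) (w : Place q K) :
    SL.unitsProj w (SL.projOn T u) = if w ∈ T then SL.unitsProj w u else 1 := by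
  apply Units.ext
  rw [SL.coe_unitsProj, SL.proj_projOn]
  split_ifs <;> rfl

lemma SL.projOn_singleton (w : Place q K) (u : (SL q K)ˣ) :
    SL.projOn {w} u = SL.unitsSingle w (SL.unitsProj w u) := by
  apply SL.units_ext_unitsProj
  intro w'
  rw [SL.unitsProj_projOn]
  by_cases h : w' = w
  · subst h
    rw [if_pos (Finset.mem_singleton_self _), SL.unitsProj_unitsSingle_self]
  · rw [if_neg (by simpa using h), SL.unitsProj_unitsSingle_of_ne h]

lemma SL.projOn_unitsSingle_of_mem {T : Finset (Place q K)} {w : Place q K} (hw : w ∈ T)
    (y : (Kv w)ˣ) : SL.projOn T (SL.unitsSingle w y) = SL.unitsSingle w y := by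
  apply SL.units_ext_unitsProj
  intro w'
  rw [SL.unitsProj_projOn]
  by_cases h : w' = w
  · subst h
    rw [if_pos hw]
  · rw [SL.unitsProj_unitsSingle_of_ne h, ite_self]

lemma SL.unitsSingle_mem_supportedOn (w : Place q K) (y : (Kv w)ˣ) :
    SL.unitsSingle w y ∈ SL.supportedOn {w} :=
  (SL.mem_supportedOn_iff _ _).2 (SL.projOn_unitsSingle_of_mem (Finset.mem_singleton_self w) y)

/-- a unit is the product of its components -/
lemma SL.prod_projOn_singleton [Fintype (Place q K)] (u : (SL q K)ˣ) :
    ∏ w : Place q K, SL.projOn {w} u = u := by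
  apply SL.units_ext_unitsProj
  intro w
  rw [map_prod, Finset.prod_eq_single w]
  · rw [SL.unitsProj_projOn, if_pos (Finset.mem_singleton_self w)]
  · intro w' _ hw'
    rw [SL.unitsProj_projOn, if_neg (by simpa using hw'.symm)]
  · intro h
    exact absurd (Finset.mem_univ w) h

/-- membership in a subgroup can be tested componentwise -/
lemma SL.mem_of_forall_projOn_singleton (H : Subgroup (SL q K)ˣ) (u : (SL q K)ˣ)
    (h : ∀ w : Place q K, SL.projOn {w} u ∈ H) : u ∈ H := by
  letI := Fintype.ofFinite (Place q K)
  rw [← SL.prod_projOn_singleton u]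
  exact Subgroup.prod_mem H fun w _ => h w

end Proj

section Over

variable {q : ℕ} [Fact q.Prime] {K L : Type} [Field K] [NumberField K] [Field L] [NumberField L]
  [DecidableEq (Place q K)] [DecidableEq (Place q L)] [Fintype (Place q L)]

/-- the places of `L` above the place `w` of `K` -/
def Place.over (f : K →+* L) (w : Place q K) : Finset (Place q L) :=
  Finset.univ.filter fun w' => Place.under f w' = w

omit [DecidableEq (Place q L)] in
lemma Place.mem_over {f : K →+* L} {w : Place q K} {w' : Place q L} :
    w' ∈ Place.over f w ↔ Place.under f w' = w := by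
  simp [Place.over]

omit [DecidableEq (Place q L)] in
lemma Place.over_nonempty (f : K →+* L) (w : Place q K) : (Place.over f w).Nonempty := by
  obtain ⟨w', hw'⟩ := Place.under_surjective f w
  exact ⟨w', Place.mem_over.2 hw'⟩

lemma SL.unitsProj_unitsMap (f : K →+* L) (w' : Place q L) (u : (SL q K)ˣ) :
    SL.unitsProj w' (SL.unitsMap q f u)
      = Units.map (Kv.map f w' : Kv (Place.under f w') →* Kv w') (SL.unitsProj (Place.under f w') u) := by
  apply Units.ext
  rfl

/-- the projection on a set `T` of places of `K` corresponds to the projection on the set of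
places of `L` above `T` -/
lemma SL.unitsMap_projOn (f : K →+* L) (T : Finset (Place q K)) (u : (SL q K)ˣ) :
    SL.unitsMap q f (SL.projOn T u)
      = SL.projOn (Finset.univ.filter fun w' => Place.under f w' ∈ T) (SL.unitsMap q f u) := by
  apply SL.units_ext_unitsProj
  intro w'
  rw [SL.unitsProj_unitsMap, SL.unitsProj_projOn, SL.unitsProj_projOn, SL.unitsProj_unitsMap]
  simp only [Finset.mem_filter, Finset.mem_univ, true_and]
  split_ifs
  · rfl
  · rw [map_one]

lemma SL.unitsMap_projOn_singleton (f : K →+* L) (w : Place q K) (u : (SL q K)ˣ) :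
    SL.unitsMap q f (SL.projOn {w} u) = SL.projOn (Place.over f w) (SL.unitsMap q f u) := by
  rw [SL.unitsMap_projOn]
  congr 1
  ext w'
  simp [Place.over]

end Over

end

end Fermat.Agent.CFT.Global
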