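/-
P4 / Layer C3 (second inequality): semi-local norm groups, elementary facts.

* `SL.pow_card_mem_normGroup` : `|G|`-th powers are norms;
* `SL.projOn_singleton_mem_normGroup_of_free` : at a place `w` of `K` which splits completely in `L`
  (the places above it have trivial stabilizer) every element is a norm (and units are norms of
  units).
-/
import Fermat.Agent.Lib.CFT.Global.SecondIneq.Defs
import Fermat.Agent.Lib.CFT.Global.SecondIneq.Components
import Fermat.Agent.Lib.CFT.Global.CyclicSupport

set_option autoImplicit false
set_option linter.style.haveILetI false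
set_option linter.unusedSectionVars false
set_option linter.unusedDecidableInType false
set_option linter.unusedFintypeInType false

open scoped TensorProduct

namespace Fermat.Agent.CFT.Global

open Fermat.Agent.CFT.Local

noncomputable section

variable {q : ℕ} [Fact q.Prime] {K L : Type} [Field K] [NumberField K] [Field L] [NumberField L]
  [Algebra K L] {G : Type} [Group G] [Finite G] [MulSemiringAction G L] [IsGaloisGroup G K L]

omit [Finite G] in
lemma SL.smul_unitsMap_algebraMap (g : G) (u : (SL q K)ˣ) :
    g • SL.unitsMap q (algebraMap K L) u = SL.unitsMap q (algebraMap K L) u :=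
  Units.ext (SL.smul_map_algebraMap q g (u : SL q K))

/-- the norm of an element coming from `K` is its `|G|`-th power -/
lemma SL.normProd_unitsMap (u : (SL q K)ˣ) :
    normProd G (SL.unitsMap q (algebraMap K L) u) = SL.unitsMap q (algebraMap K L) (u ^ Nat.card G) := by
  rw [normProd_of_forall_smul_eq G (fun g => SL.smul_unitsMap_algebraMap g u), map_pow]

/-- `|G|`-th powers are norms -/
theorem SL.pow_card_mem_normGroup (u : (SL q K)ˣ) : u ^ Nat.card G ∈ SL.normGroup K L G q :=
  ⟨SL.unitsMap q (algebraMap K L) u, SL.normProd_unitsMap u⟩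

/-- `|G|`-th powers of integral units are norms of integral units -/
theorem SL.pow_card_mem_normUnitGroup {u : (SL q K)ˣ} (hu : u ∈ SL.unitGroup q K) :
    u ^ Nat.card G ∈ SL.normUnitGroup K L G q :=
  ⟨SL.unitsMap q (algebraMap K L) u, SL.unitsMap_mem_unitGroup q _ hu, SL.normProd_unitsMap u⟩

section Free

variable [DecidableEq (Place q K)]

/-- At a place `w` of `K` which splits completely in `L`, the norm of the element supported at one
place `w₀` above `w`. -/
lemma SL.normProd_projOn_singleton [DecidableEq (Place q L)] [Fintype (Place q L)]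
    (w : Place q K) (w₀ : Place q L)
    (hw₀ : Place.under (algebraMap K L) w₀ = w) (hfree : ∀ g : G, g • w₀ = w₀ → g = 1)
    (u : (SL q K)ˣ) :
    normProd G (SL.projOn {w₀} (SL.unitsMap q (algebraMap K L) u))
      = SL.unitsMap q (algebraMap K L) (SL.projOn {w} u) := by
  classical
  letI := Fintype.ofFinite G
  rw [normProd_apply, finprod_eq_prod_of_fintype, SL.unitsMap_projOn_singleton]
  have h1 : ∀ g : G, g • SL.projOn {w₀} (SL.unitsMap q (algebraMap K L) u)
      = SL.projOn {g • w₀} (SL.unitsMap q (algebraMap K L) u) := by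
    intro g
    rw [SL.smul_projOn, Finset.image_singleton, SL.smul_unitsMap_algebraMap]
  simp only [h1]
  have hT : (Finset.univ.biUnion fun g : G => ({g • w₀} : Finset (Place q L)))
      = Place.over (algebraMap K L) w := by
    ext w'
    rw [Finset.mem_biUnion, Place.mem_over]
    constructor
    · rintro ⟨g, -, hg⟩
      rw [Finset.mem_singleton] at hg
      rw [hg, Place.under_smul, hw₀]
    · intro h
      obtain ⟨g, hg⟩ := Place.exists_smul_eq_of_under_eq (G := G) (K := K) (hw₀.trans h.symm)
      exact ⟨g, Finset.mem_univ g, by rw [Finset.mem_singleton, hg]⟩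
  rw [SL.prod_projOn, hT]
  · intro g _ h _ hgh
    rw [Function.onFun, Finset.disjoint_singleton]
    intro heq
    apply hgh
    have : (h⁻¹ * g) • w₀ = w₀ := by rw [mul_smul, heq, inv_smul_smul]
    have := hfree _ this
    rw [inv_mul_eq_one] at this
    exact this.symm

/-- **Split places**: at a place `w` of `K` above which the stabilizers are trivial every element is
a norm. -/
theorem SL.projOn_singleton_mem_normGroup_of_free (w : Place q K)
    (hfree : ∀ w' : Place q L, Place.under (algebraMap K L) w' = w → ∀ g : G, g • w' = w' → g = 1)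
    (u : (SL q K)ˣ) : SL.projOn {w} u ∈ SL.normGroup K L G q := by
  classical
  letI := Fintype.ofFinite (Place q L)
  obtain ⟨w₀, hw₀⟩ := Place.under_surjective (algebraMap K L) w
  exact ⟨_, SL.normProd_projOn_singleton w w₀ hw₀ (hfree w₀ hw₀) u⟩

/-- **Split places**, unit version. -/
theorem SL.projOn_singleton_mem_normUnitGroup_of_free (w : Place q K)
    (hfree : ∀ w' : Place q L, Place.under (algebraMap K L) w' = w → ∀ g : G, g • w' = w' → g = 1)
    {u : (SL q K)ˣ} (hu : u ∈ SL.unitGroup q K) : SL.projOn {w} u ∈ SL.normUnitGroup K L G q := by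
  classical
  letI := Fintype.ofFinite (Place q L)
  obtain ⟨w₀, hw₀⟩ := Place.under_surjective (algebraMap K L) w
  exact ⟨_, SL.projOn_mem_unitGroup _ (SL.unitsMap_mem_unitGroup q _ hu),
    SL.normProd_projOn_singleton w w₀ hw₀ (hfree w₀ hw₀) u⟩

end Free

section Pow

variable [DecidableEq (Place q K)]

omit [NumberField L] [Algebra K L] in
/-- if the component of `u` at `w` is an `n`-th power then so is `SL.projOn {w} u` -/
lemma SL.projOn_singleton_eq_pow (w : Place q K) (u : (SL q K)ˣ) (z : (Kv w)ˣ) (n : ℕ)
    (h : SL.unitsProj w u = z ^ n) : SL.projOn {w} u = SL.unitsSingle w z ^ n := by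
  rw [SL.projOn_singleton, h, map_pow]

/-- components which are `|G|`-th powers are norms -/
theorem SL.projOn_singleton_mem_normGroup_of_pow (w : Place q K) (u : (SL q K)ˣ) (z : (Kv w)ˣ)
    (h : SL.unitsProj w u = z ^ Nat.card G) : SL.projOn {w} u ∈ SL.normGroup K L G q := by
  rw [SL.projOn_singleton_eq_pow w u z _ h]
  exact SL.pow_card_mem_normGroup _

/-- unit components which are `|G|`-th powers are norms of units -/
theorem SL.projOn_singleton_mem_normUnitGroup_of_pow (w : Place q K) (u : (SL q K)ˣ) (z : (Kv w)ˣ)
    (h : SL.unitsProj w u = z ^ Nat.card G) (hz : ordW w z = 1) :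
    SL.projOn {w} u ∈ SL.normUnitGroup K L G q := by
  rw [SL.projOn_singleton_eq_pow w u z _ h]
  exact SL.pow_card_mem_normUnitGroup ((SL.unitsSingle_mem_unitGroup_iff w z).2 hz)

end Pow

end

end Fermat.Agent.CFT.Global
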