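/-
P4 / Layer C3 (leaf X1): `J_S = Kˣ · J_Sⁿ` (weak approximation + openness of the `n`-th powers).

* `Kv.exists_pow_eq_of_sub_one_eq` : in `K_w`, the elements of `1 + q^k • O_w` are `n`-th powers for
  `k` large;
* `SL.exists_forall_pow_eq_of_sub_one_mem_ball` : in `ℚ_q ⊗ K`, the units in `1 + q^k • O_q` are
  `n`-th powers for `k` large;
* `JS.exists_diag_mul_pow` : every `S`-idele is a principal idele times an `n`-th power.
-/
import Fermat.Agent.Lib.CFT.Global.WeakApprox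
import Fermat.Agent.Lib.CFT.Global.Induced
import Fermat.Agent.Lib.CFT.Local.PowerIndex

set_option autoImplicit false
set_option linter.style.haveILetI false
set_option linter.unusedSectionVars false

open scoped TensorProduct

namespace Fermat.Agent.CFT.Global

noncomputable section

section Local

variable {q : ℕ} [Fact q.Prime] {K : Type} [Field K] [NumberField K]

/-- **openness of the `n`-th powers in `K_w`**: for `k` large, every element of `1 + q^k • O_w` is
an `n`-th power of a unit of `K_w` -/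
theorem Kv.exists_forall_pow_eq_of_eq_one_add (w : Place q K) (n : ℕ) (hn : n ≠ 0) :
    ∃ k : ℕ, ∀ t : Kv w, (∃ z ∈ Ow w, t = 1 + (q : ℚ_[q]) ^ k • z) →
      ∃ s : (Kv w)ˣ, ((s ^ n : (Kv w)ˣ) : Kv w) = t := by
  obtain ⟨ϖ, hϖ⟩ := IsDiscreteValuationRing.exists_irreducible (Ow w)
  haveI : CharZero (Kv w) := charZero_of_injective_algebraMap (algebraMap ℚ_[q] (Kv w)).injective
  have hn0 : ((n : ℕ) : Ow w) ≠ 0 := by
    intro h
    have h1 : ((n : ℕ) : Kv w) = 0 := by
      have := congrArg (fun a : Ow w => (a : Kv w)) h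
      simpa using this
    exact hn (Nat.cast_eq_zero.1 h1)
  obtain ⟨e, v, hv⟩ := Local.exists_eq_unit_mul_pow n hn0 hϖ
  refine ⟨e + 1 + e, ?_⟩
  rintro t ⟨z, hz, rfl⟩
  -- the element `1 + q^k z` of `O_w`
  set y₀ : Ow w := 1 + ((q : ℕ) : Ow w) ^ (e + 1 + e) * ⟨z, hz⟩ with hy₀
  have hmem : y₀ - 1 ∈ IsLocalRing.maximalIdeal (Ow w) ^ (e + 1 + e) := by
    rw [hy₀, add_sub_cancel_left]
    exact Ideal.mul_mem_right _ _ (Ideal.pow_mem_pow (Place.natCast_mem_maximalIdeal w) _)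
  have hunit : IsUnit y₀ := by
    apply IsLocalRing.isUnit_of_mem_nonunits_one_sub_self
    rw [← IsLocalRing.mem_maximalIdeal]
    have h1 : (1 : Ow w) - y₀ = -(y₀ - 1) := by ring
    rw [h1]
    exact neg_mem (Ideal.pow_le_self (by omega) hmem)
  obtain ⟨y, hy⟩ := hunit
  have hyU : y ∈ Local.U (Ow w) (e + 1 + e) := by
    rw [Local.mem_U, hy]
    exact hmem
  obtain ⟨x, -, hx⟩ := Local.exists_pow_eq_of_mem_U hϖ n e v hv (e + 1) le_rfl y hyU
  refine ⟨Units.map ((Ow w).val : Ow w →* Kv w) x, ?_⟩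
  rw [← map_pow, hx]
  change ((y : Ow w) : Kv w) = _
  rw [hy, hy₀, Algebra.smul_def]
  simp

end Local

section SemiLocal

variable (q : ℕ) [Fact q.Prime] (K : Type) [Field K] [NumberField K]

/-- **openness of the `n`-th powers in `(ℚ_q ⊗ K)ˣ`**: for `k` large, the units in
`1 + q^k • O_q` are `n`-th powers -/
theorem SL.exists_forall_pow_eq_of_sub_one_mem_ball (n : ℕ) (hn : n ≠ 0) :
    ∃ k : ℕ, 1 ≤ k ∧ ∀ u : (SL q K)ˣ, (u : SL q K) - 1 ∈ SL.ball q K k →
      ∃ s : (SL q K)ˣ, s ^ n = u := by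
  classical
  letI := Fintype.ofFinite (Place q K)
  choose kw hkw using fun w : Place q K => Kv.exists_forall_pow_eq_of_eq_one_add w n hn
  refine ⟨1 + ∑ w, kw w, by omega, fun u hu => ?_⟩
  have h1 : ∀ w : Place q K, ∃ s : (Kv w)ˣ, s ^ n = SL.unitsProj w u := by
    intro w
    have hle : kw w ≤ 1 + ∑ w, kw w :=
      le_trans (Finset.single_le_sum (f := kw) (fun _ _ => Nat.zero_le _) (Finset.mem_univ w))
        (Nat.le_add_left _ _)
    obtain ⟨z, hz, h⟩ := SL.exists_proj_eq_one_add_of_sub_one_mem_ball (SL.ball_anti hle hu) w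
    obtain ⟨s, hs⟩ := hkw w _ ⟨z, hz, h⟩
    exact ⟨s, Units.ext hs⟩
  choose s hs using h1
  refine ⟨SL.unitsEquivPi.symm s, ?_⟩
  apply SL.units_ext_unitsProj
  intro w
  rw [map_pow, ← SL.unitsEquivPi_apply, MulEquiv.apply_symm_apply, hs]

end SemiLocal

section Ideles

variable (S : Finset Nat.Primes) (K : Type) [Field K] [NumberField K]

/-- **`J_S = Kˣ · J_Sⁿ`**: every `S`-idele is a principal idele times an `n`-th power. -/
theorem JS.exists_diag_mul_pow (n : ℕ) (hn : n ≠ 0) (y : JS S K) :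
    ∃ (a : Kˣ) (z : JS S K), y = JS.diag S K a * z ^ n := by
  classical
  -- the radius of the ball of `n`-th powers at each prime
  choose kq hkq1 hkq using fun q : Nat.Primes =>
    SL.exists_forall_pow_eq_of_sub_one_mem_ball (q : ℕ) K n hn
  set k : ℕ := ∑ q ∈ S, kq q with hk
  have hle : ∀ q ∈ S, kq q ≤ k := fun q hq =>
    Finset.single_le_sum (f := kq) (fun _ _ => Nat.zero_le _) hq
  -- extend `y` to all primes
  let x : ∀ q : Nat.Primes, (SL (q : ℕ) K)ˣ := fun q => if h : q ∈ S then y ⟨q, h⟩ else 1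
  obtain ⟨a, ha⟩ := SL.exists_forall_unitsIncl_div_sub_one_mem_ball S x k
  have h1 : ∀ q : S, ∃ s : (SL ((q : Nat.Primes) : ℕ) K)ˣ,
      s ^ n = SL.unitsIncl ((q : Nat.Primes) : ℕ) K a / y q := by
    intro q
    have h2 := SL.ball_anti (hle q.1 q.2) (ha q.1 q.2)
    have hx : x q.1 = y q := by
      change (if h : q.1 ∈ S then y ⟨q.1, h⟩ else 1) = y q
      rw [dif_pos q.2]
    rw [hx] at h2
    exact hkq q.1 _ h2
  choose s hs using h1
  refine ⟨a, fun q => (s q)⁻¹, ?_⟩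
  ext q
  change (y q : SL ((q : Nat.Primes) : ℕ) K) =
    ((SL.unitsIncl ((q : Nat.Primes) : ℕ) K a * ((s q)⁻¹) ^ n :
      (SL ((q : Nat.Primes) : ℕ) K)ˣ) : SL ((q : Nat.Primes) : ℕ) K)
  rw [inv_pow, hs q, inv_div, mul_div_cancel]

end Ideles

end

end Fermat.Agent.CFT.Global
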