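/-
P4 / Layer C3 (leaf X4): the index of the `p`-th powers in the `S`-ideles,
`[J_S : J_Sᵖ] = p ^ ([K : ℚ] + 2 · #{places above S})` for `p ∈ S`, `μ_p ⊆ K`.
-/
import Fermat.Agent.Lib.CFT.Global.Induced
import Fermat.Agent.Lib.CFT.Global.GlobalUnits
import Fermat.Agent.Lib.CFT.Local.PowerIndex

set_option autoImplicit false
set_option linter.style.haveILetI false
set_option linter.unusedSectionVars false

open scoped TensorProduct

namespace Fermat.Agent.CFT.Global

noncomputable section

/-! ## Generalities on indices of power subgroups -/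

section Generic

/-- the index of a product subgroup (dependent version of `Subgroup.index_pi`) -/
lemma index_pi_dep {ι : Type*} [Fintype ι] {G : ι → Type*} [∀ i, Group (G i)]
    (H : ∀ i, Subgroup (G i)) : (Subgroup.pi Set.univ H).index = ∏ i, (H i).index := by
  simp_rw [Subgroup.index, ← Nat.card_pi]
  refine Nat.card_congr
    ((Quotient.congrRight (fun x y ↦ ?_)).trans (Setoid.piQuotientEquiv _).symm)
  rw [QuotientGroup.leftRel_pi]

lemma range_powMonoidHom_pi {ι : Type*} {G : ι → Type*} [∀ i, CommGroup (G i)] (n : ℕ) :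
    (powMonoidHom n : (∀ i, G i) →* (∀ i, G i)).range =
      Subgroup.pi Set.univ (fun i => (powMonoidHom n : G i →* G i).range) := by
  ext x
  rw [Subgroup.mem_pi]
  constructor
  · rintro ⟨y, rfl⟩ i _
    exact ⟨y i, rfl⟩
  · intro h
    choose y hy using fun i => h i (Set.mem_univ i)
    exact ⟨y, funext hy⟩

lemma index_range_powMonoidHom_pi {ι : Type*} [Fintype ι] {G : ι → Type*}
    [∀ i, CommGroup (G i)] (n : ℕ) :
    (powMonoidHom n : (∀ i, G i) →* (∀ i, G i)).range.index =
      ∏ i, (powMonoidHom n : G i →* G i).range.index := by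
  rw [range_powMonoidHom_pi, index_pi_dep]

lemma index_range_powMonoidHom_congr {G G' : Type*} [CommGroup G] [CommGroup G'] (e : G ≃* G')
    (n : ℕ) :
    (powMonoidHom n : G →* G).range.index = (powMonoidHom n : G' →* G').range.index := by
  have h : (powMonoidHom n : G' →* G').range =
      (powMonoidHom n : G →* G).range.map (e : G →* G') := by
    ext x
    constructor
    · rintro ⟨y, rfl⟩
      exact ⟨(e.symm y) ^ n, ⟨e.symm y, rfl⟩, by simp⟩
    · rintro ⟨_, ⟨y, rfl⟩, rfl⟩
      exact ⟨e y, by simp⟩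
  rw [h]
  exact (Subgroup.index_map_equiv _ e).symm

end Generic

/-! ## The local index -/

section Local

variable {q : ℕ} [Fact q.Prime] {K : Type} [Field K] [NumberField K]

instance Kv.charZero (w : Place q K) : CharZero (Kv w) :=
  charZero_of_injective_algebraMap (algebraMap ℚ_[q] (Kv w)).injective

lemma Ow.natCast_ne_zero (w : Place q K) {n : ℕ} (hn : n ≠ 0) : ((n : ℕ) : Ow w) ≠ 0 := by
  intro h
  have h1 : ((n : ℕ) : Kv w) = 0 := by
    have := congrArg (fun a : Ow w => (a : Kv w)) h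
    simpa using this
  exact hn (Nat.cast_eq_zero.1 h1)

/-- `K_w` contains the `p`-th roots of unity of `K` -/
theorem Kv.card_ker_powMonoidHom (w : Place q K) (p : ℕ) [Fact p.Prime] (ζ : K)
    (hζ : IsPrimitiveRoot ζ p) :
    Nat.card (powMonoidHom p : (Kv w)ˣ →* (Kv w)ˣ).ker = p := by
  haveI : NeZero p := ⟨(Fact.out : p.Prime).ne_zero⟩
  have h1 : IsPrimitiveRoot (Kv.emb w ζ) p := hζ.map_of_injective (Kv.emb w).injective
  have h2 : (powMonoidHom p : (Kv w)ˣ →* (Kv w)ˣ).ker = rootsOfUnity p (Kv w) := by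
    ext x
    rw [MonoidHom.mem_ker, mem_rootsOfUnity]
    rfl
  rw [h2, h1.card_rootsOfUnity]

/-- `p` is a unit of `O_w` for `w ∤ p` -/
theorem Ow.card_quotient_span_natCast_of_ne (w : Place q K) {p : ℕ} (hp : p.Prime) (hqp : q ≠ p) :
    Nat.card (Ow w ⧸ Ideal.span {((p : ℕ) : Ow w)}) = 1 := by
  have hu : IsUnit ((p : ℕ) : ℤ_[q]) := by
    rw [PadicInt.isUnit_iff]
    by_contra h
    have h2 : ‖(((p : ℕ) : ℤ) : ℤ_[q])‖ < 1 := by
      have := lt_of_le_of_ne (PadicInt.norm_le_one ((p : ℕ) : ℤ_[q])) h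
      simpa using this
    rw [PadicInt.norm_int_lt_one_iff_dvd] at h2
    have h3 : q ∣ p := by exact_mod_cast h2
    exact hqp ((Nat.prime_dvd_prime_iff_eq (Fact.out : q.Prime) hp).1 h3)
  have hu' : IsUnit ((p : ℕ) : Ow w) := by
    have := hu.map (algebraMap ℤ_[q] (Ow w))
    rwa [map_natCast] at this
  rw [Ideal.span_singleton_eq_top.2 hu']
  haveI : Subsingleton (Ow w ⧸ (⊤ : Ideal (Ow w))) := Ideal.Quotient.subsingleton_iff.2 rfl
  exact Nat.card_of_subsingleton 0

instance Kv.faithfulSMul_padicInt (w : Place q K) : FaithfulSMul ℤ_[q] (Kv w) := by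
  rw [faithfulSMul_iff_algebraMap_injective, IsScalarTower.algebraMap_eq ℤ_[q] ℚ_[q] (Kv w)]
  exact (algebraMap ℚ_[q] (Kv w)).injective.comp (IsFractionRing.injective ℤ_[q] ℚ_[q])

/-- `O_w` is a free `ℤ_q`-module of rank `[K_w : ℚ_q]` -/
theorem Ow.finrank_eq (w : Place q K) :
    Module.finrank ℤ_[q] (Ow w) = Module.finrank ℚ_[q] (Kv w) :=
  IsIntegralClosure.rank ℤ_[q] ℚ_[q] (Kv w) (Ow w)

instance Ow.module_free (w : Place q K) : Module.Free ℤ_[q] (Ow w) :=
  IsIntegralClosure.module_free ℤ_[q] ℚ_[q] (Kv w) (Ow w)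

instance Ow.module_finite (w : Place q K) : Module.Finite ℤ_[q] (Ow w) :=
  IsIntegralClosure.finite ℤ_[q] ℚ_[q] (Kv w) (Ow w)

/-- `|O_w / q O_w| = q ^ [K_w : ℚ_q]` -/
theorem Ow.card_quotient_span_natCast_self (w : Place q K) :
    Nat.card (Ow w ⧸ Ideal.span {((q : ℕ) : Ow w)}) = q ^ Module.finrank ℚ_[q] (Kv w) := by
  classical
  rw [← Ow.finrank_eq]
  set d := Module.finrank ℤ_[q] (Ow w) with hd
  let b : Module.Basis (Fin d) ℤ_[q] (Ow w) := Module.finBasis ℤ_[q] (Ow w)
  -- reduction of the coordinates modulo `q`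
  let f : Ow w →+ (Fin d → ZMod q) :=
    { toFun := fun x i => PadicInt.toZMod (b.repr x i)
      map_zero' := by funext i; simp
      map_add' := fun x y => by funext i; simp }
  have hf : Function.Surjective f := by
    intro c
    choose a ha using fun i => ZMod.ringHom_surjective (PadicInt.toZMod (p := q)) (c i)
    refine ⟨∑ i, a i • b i, ?_⟩
    funext i
    change PadicInt.toZMod (b.repr (∑ j, a j • b j) i) = c i
    rw [b.repr_sum_self, ha]
  have hker : f.ker = (Ideal.span {((q : ℕ) : Ow w)}).toAddSubgroup := by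
    ext x
    rw [AddMonoidHom.mem_ker, Submodule.mem_toAddSubgroup, Ideal.mem_span_singleton]
    constructor
    · intro h
      have h1 : ∀ i, ∃ c : ℤ_[q], b.repr x i = (q : ℤ_[q]) * c := by
        intro i
        have h2 : PadicInt.toZMod (b.repr x i) = 0 := congrFun h i
        rw [← RingHom.mem_ker, PadicInt.ker_toZMod, PadicInt.maximalIdeal_eq_span_p,
          Ideal.mem_span_singleton] at h2
        exact h2
      choose c hc using h1
      refine ⟨∑ i, c i • b i, ?_⟩
      conv_lhs => rw [← b.sum_repr x]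
      rw [Finset.mul_sum]
      refine Finset.sum_congr rfl (fun i _ => ?_)
      rw [hc i, mul_smul, Algebra.smul_def ((q : ℤ_[q])) (c i • b i), map_natCast]
    · rintro ⟨y, rfl⟩
      funext i
      change PadicInt.toZMod (b.repr (((q : ℕ) : Ow w) * y) i) = 0
      have h1 : ((q : ℕ) : Ow w) * y = (q : ℤ_[q]) • y := by
        rw [Algebra.smul_def, map_natCast]
      rw [h1, map_smul, Finsupp.smul_apply, smul_eq_mul, map_mul, map_natCast,
        ZMod.natCast_self, zero_mul]
  have h1 : Nat.card (Ow w ⧸ Ideal.span {((q : ℕ) : Ow w)}) =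
      (Ideal.span {((q : ℕ) : Ow w)}).toAddSubgroup.index := rfl
  rw [h1, ← hker, AddSubgroup.index_ker, AddMonoidHom.range_eq_top.2 hf,
    Nat.card_congr (AddSubgroup.topEquiv (G := Fin d → ZMod q)).toEquiv, Nat.card_pi]
  simp

/-- **the local index**: `[K_wˣ : K_wˣᵖ] = p² · |O_w / p|` if `μ_p ⊆ K` -/
theorem Kv.index_range_powMonoidHom (w : Place q K) (p : ℕ) [Fact p.Prime] (ζ : K)
    (hζ : IsPrimitiveRoot ζ p) :
    (powMonoidHom p : (Kv w)ˣ →* (Kv w)ˣ).range.index =
      p * p * (if q = p then p ^ Module.finrank ℚ_[q] (Kv w) else 1) := by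
  have hp0 : p ≠ 0 := (Fact.out : p.Prime).ne_zero
  rw [Local.index_range_powMonoidHom_field_eq' (A := Ow w) (K := Kv w) p
    (Ow.natCast_ne_zero w hp0), Kv.card_ker_powMonoidHom w p ζ hζ]
  split_ifs with h
  · subst h
    rw [Ow.card_quotient_span_natCast_self]
  · rw [Ow.card_quotient_span_natCast_of_ne w Fact.out h]

end Local

/-! ## The semi-local index -/

section SemiLocal

variable (q : ℕ) [Fact q.Prime] (K : Type) [Field K] [NumberField K]

/-- the sum of the local degrees is the global degree -/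
theorem SL.sum_finrank_Kv [Fintype (Place q K)] :
    ∑ w : Place q K, Module.finrank ℚ_[q] (Kv w) = Module.finrank ℚ K := by
  rw [← Module.finrank_pi_fintype ℚ_[q], ← (SL.equivPi q K).toLinearEquiv.finrank_eq]
  simp

theorem SL.index_range_powMonoidHom (p : ℕ) [Fact p.Prime] (ζ : K) (hζ : IsPrimitiveRoot ζ p) :
    (powMonoidHom p : (SL q K)ˣ →* (SL q K)ˣ).range.index =
      (p * p) ^ Nat.card (Place q K) * (if q = p then p ^ Module.finrank ℚ K else 1) := by
  classical
  letI := Fintype.ofFinite (Place q K)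
  rw [index_range_powMonoidHom_congr (SL.unitsEquivPi (q := q) (L := K)) p,
    index_range_powMonoidHom_pi]
  simp only [Kv.index_range_powMonoidHom _ p ζ hζ]
  rw [Finset.prod_mul_distrib, Finset.prod_const, Finset.card_univ, Nat.card_eq_fintype_card]
  congr 1
  split_ifs with h
  · rw [Finset.prod_pow_eq_pow_sum, SL.sum_finrank_Kv]
  · exact Finset.prod_const_one

end SemiLocal

/-! ## The index of the `p`-th powers in the `S`-ideles -/

section Global

/-- **`[J_S : J_Sᵖ] = p ^ ([K : ℚ] + 2 · #{places above S})`** for `p ∈ S` and `μ_p ⊆ K`. -/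
theorem JS.index_range_pow (S : Finset Nat.Primes) (K : Type) [Field K] [NumberField K]
    (p : ℕ) [hp : Fact p.Prime] (hpS : (⟨p, hp.out⟩ : Nat.Primes) ∈ S) (ζ : K)
    (hζ : IsPrimitiveRoot ζ p) :
    (powMonoidHom p : JS S K →* JS S K).range.index =
      p ^ (Module.finrank ℚ K + 2 * Nat.card (PlacesOver S K)) := by
  classical
  have h1 : (powMonoidHom p : JS S K →* JS S K).range.index =
      ∏ q : S, (powMonoidHom p : (SL ((q : Nat.Primes) : ℕ) K)ˣ →*
        (SL ((q : Nat.Primes) : ℕ) K)ˣ).range.index :=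
    index_range_powMonoidHom_pi (G := fun q : S => (SL ((q : Nat.Primes) : ℕ) K)ˣ) p
  rw [h1]
  simp only [SL.index_range_powMonoidHom _ K p ζ hζ]
  rw [Finset.prod_mul_distrib, Finset.prod_pow_eq_pow_sum, card_placesOver,
    ← Finset.sum_coe_sort S]
  have h2 : ∏ q : S, (if ((q : Nat.Primes) : ℕ) = p then p ^ Module.finrank ℚ K else 1) =
      p ^ Module.finrank ℚ K := by
    rw [Finset.prod_eq_single (⟨⟨p, hp.out⟩, hpS⟩ : S)]
    · rw [if_pos rfl]
    · intro q _ hq
      rw [if_neg]
      intro h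
      apply hq
      apply Subtype.ext
      apply Subtype.ext
      exact h
    · intro h
      exact absurd (Finset.mem_univ _) h
  rw [h2, ← pow_two, ← pow_mul, mul_comm, pow_add]

end Global

end

end Fermat.Agent.CFT.Global
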