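import Fermat.Agent.Lib.CFT.Global.Kummer

/-!
# P4 / Layer C3 (second inequality), leaf X6: Kummer extensions as number fields with a group action

* `exists_kummer_extension` : if `μ_p ⊆ K` and `x ∈ Kˣ` is not a `p`-th power, then
  `L = K[X]/(X^p - x)` is a number field, Galois over `K` with group `G = Gal(L/K)` of order `p`
  (`IsGaloisGroup G K L`), and `x` is a `p`-th power in `L`;
* `exists_kummer_generator` : conversely, a cyclic extension `L / K` of degree `p` with `μ_p ⊆ K`
  is `K(β)` with `β ^ p ∈ Kˣ`, and no nontrivial element of `G` fixes `β`.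
-/

set_option autoImplicit false
set_option linter.style.haveILetI false

open Polynomial IntermediateField

namespace Fermat.Agent.CFT.Global

section KummerExt

/-- **C3-X6 (a).**  If `K` is a number field containing a primitive `p`-th root of unity and
`x ∈ Kˣ` is not a `p`-th power, there is a cyclic extension `L / K` of degree `p` (as a number field
with a group action) in which `x` becomes a `p`-th power. -/
theorem exists_kummer_extension (K : Type) [Field K] [NumberField K] (p : ℕ) [Fact p.Prime]
    (ζ : K) (hζ : IsPrimitiveRoot ζ p) (x : Kˣ) (hx : ∀ y : Kˣ, y ^ p ≠ x) :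
    ∃ (L : Type) (_ : Field L) (_ : NumberField L) (_ : Algebra K L) (G : Type) (_ : Group G)
      (_ : Finite G) (_ : MulSemiringAction G L) (_ : IsGaloisGroup G K L),
      Nat.card G = p ∧ ∃ β : Lˣ, β ^ p = Units.map (algebraMap K L : K →* L) x := by
  have hp : p.Prime := Fact.out
  have hx' : ∀ b : K, b ^ p ≠ (x : K) := by
    intro b hb
    have hb0 : b ≠ 0 := by
      rintro rfl
      rw [zero_pow hp.ne_zero] at hb
      exact x.ne_zero hb.symm
    exact hx (Units.mk0 b hb0) (Units.ext (by simpa using hb))
  have H : Irreducible (X ^ p - C (x : K)) := X_pow_sub_C_irreducible_of_prime hp hx'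
  have hζ' : (primitiveRoots p K).Nonempty := ⟨ζ, (mem_primitiveRoots hp.pos).2 hζ⟩
  haveI := Fact.mk H
  haveI hsplit : IsSplittingField K (AdjoinRoot (X ^ p - C (x : K))) (X ^ p - C (x : K)) :=
    isSplittingField_AdjoinRoot_X_pow_sub_C hζ' H
  haveI hfd : FiniteDimensional K (AdjoinRoot (X ^ p - C (x : K))) :=
    IsSplittingField.finiteDimensional _ (X ^ p - C (x : K))
  haveI hgal : IsGalois K (AdjoinRoot (X ^ p - C (x : K))) :=
    isGalois_of_isSplittingField_X_pow_sub_C hζ' H _
  haveI hnf : NumberField (AdjoinRoot (X ^ p - C (x : K))) := NumberField.of_module_finite K _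
  refine ⟨AdjoinRoot (X ^ p - C (x : K)), inferInstance, hnf, inferInstance,
    (AdjoinRoot (X ^ p - C (x : K))) ≃ₐ[K] (AdjoinRoot (X ^ p - C (x : K))), inferInstance,
    inferInstance, inferInstance, inferInstance, ?_, ?_⟩
  · rw [IsGalois.card_aut_eq_finrank]
    exact finrank_of_isSplittingField_X_pow_sub_C hζ' H _
  · have hroot : (AdjoinRoot.root (X ^ p - C (x : K))) ^ p =
        algebraMap K (AdjoinRoot (X ^ p - C (x : K))) (x : K) := root_X_pow_sub_C_pow p (x : K)
    have hne : AdjoinRoot.root (X ^ p - C (x : K)) ≠ 0 := by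
      intro h0
      rw [h0, zero_pow hp.ne_zero] at hroot
      exact x.ne_zero ((map_eq_zero _).1 hroot.symm)
    exact ⟨Units.mk0 _ hne, Units.ext (by simpa using hroot)⟩

/-- **C3-X6 (b).**  Conversely every cyclic extension of degree `p` of a field containing a primitive
`p`-th root of unity is a Kummer extension `K(β)`, `β ^ p ∈ Kˣ`; the generator `β` has trivial
stabiliser. -/
theorem exists_kummer_generator (K L : Type) [Field K] [NumberField K] [Field L] [NumberField L]
    [Algebra K L] (G : Type) [Group G] [Finite G] [MulSemiringAction G L] [IsGaloisGroup G K L]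
    (p : ℕ) [Fact p.Prime] (hG : Nat.card G = p) (ζ : K) (hζ : IsPrimitiveRoot ζ p) :
    ∃ (x : Kˣ) (β : Lˣ), β ^ p = Units.map (algebraMap K L : K →* L) x ∧
      (∀ g : G, g • (β : L) = β → g = 1) := by
  have hp : p.Prime := Fact.out
  haveI : IsGalois K L := IsGaloisGroup.isGalois G K L
  haveI : FiniteDimensional K L := IsGaloisGroup.finiteDimensional G K L
  have hfr : Module.finrank K L = p := by rw [← IsGaloisGroup.card_eq_finrank G K L, hG]
  haveI : IsCyclic Gal(L/K) := by
    apply isCyclic_of_prime_card (p := p)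
    rw [IsGalois.card_aut_eq_finrank, hfr]
  have hK : (primitiveRoots (Module.finrank K L) K).Nonempty := by
    rw [hfr]
    exact ⟨ζ, (mem_primitiveRoots hp.pos).2 hζ⟩
  obtain ⟨α, ⟨a, ha⟩, hα⟩ := exists_root_adjoin_eq_top_of_isCyclic K L hK
  rw [hfr] at ha
  have hα0 : α ≠ 0 := by
    rintro rfl
    have h1 : K⟮(0 : L)⟯ = ⊥ := by simp
    rw [h1] at hα
    have h2 : Module.finrank K (⊥ : IntermediateField K L) = 1 := IntermediateField.finrank_bot
    rw [hα, IntermediateField.finrank_top', hfr] at h2
    exact hp.one_lt.ne' h2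
  have ha0 : a ≠ 0 := by
    rintro rfl
    rw [map_zero] at ha
    exact hα0 (pow_eq_zero_iff hp.ne_zero |>.1 ha.symm)
  refine ⟨Units.mk0 a ha0, Units.mk0 α hα0, Units.ext (by simpa using ha.symm), ?_⟩
  intro g hg
  haveI : FaithfulSMul G L := IsGaloisGroup.faithful K
  haveI : SMulCommClass G K L := IsGaloisGroup.commutes
  have h3 : MulSemiringAction.toAlgAut G K L g = 1 := by
    apply Kummer.algEquiv_ext_of_adjoin_eq_top (S := {α}) hα
    intro y hy
    rw [Set.mem_singleton_iff] at hy
    subst hy
    exact hg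
  apply eq_of_smul_eq_smul (α := L)
  intro y
  rw [one_smul]
  exact DFunLike.congr_fun h3 y

end KummerExt

end Fermat.Agent.CFT.Global
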