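/-
P4 / Layer C3 (second inequality): local norms in a Kummer extension `L = K(β)`, `β ^ p = x ∈ K`,
of prime degree `p` (`μ_p ⊆ K`, `p` odd).

* `finprod_smul_kummer` : `N_{L/K} β = x`;
* `Place.free_of_kummer` : the places of `K` at which `x` is a `p`-th power split completely;
* `SL.projOn_singleton_mem_normUnitGroup_of_kummer` : at a place `w ∤ p` of `K` at which `x` is a
  unit, all units are norms of units.
-/
import Fermat.Agent.Lib.CFT.Global.SecondIneq.LocalNorm
import Fermat.Agent.Lib.CFT.Global.SecondIneq.LocalUnits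
import Fermat.Agent.Lib.CFT.Global.LocalGalois

set_option autoImplicit false
set_option linter.style.haveILetI false
set_option linter.unusedSectionVars false
set_option linter.unusedDecidableInType false
set_option linter.unusedFintypeInType false

open scoped TensorProduct

namespace Fermat.Agent.CFT.Global

open Fermat.Agent.CFT.Local

noncomputable section

section Generator

/-- a product over a finite cyclic group as a product over the powers of a generator -/
theorem finprod_eq_prod_range_of_generator {G M : Type*} [Group G] [Finite G] [CommMonoid M]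
    (g₀ : G) (hg₀ : ∀ g : G, g ∈ Subgroup.zpowers g₀) (F : G → M) :
    ∏ᶠ g : G, F g = ∏ i ∈ Finset.range (Nat.card G), F (g₀ ^ i) := by
  classical
  letI := Fintype.ofFinite G
  have hord : orderOf g₀ = Nat.card G := orderOf_eq_card_of_forall_mem_zpowers hg₀
  have hinj : Set.InjOn (fun i : ℕ => g₀ ^ i) (Finset.range (Nat.card G) : Set ℕ) := by
    intro i hi j hj h
    rw [Finset.coe_range, ← hord] at hi hj
    exact pow_injOn_Iio_orderOf hi hj h
  have himage : (Finset.range (Nat.card G)).image (fun i : ℕ => g₀ ^ i) = Finset.univ := by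
    apply Finset.eq_univ_of_card
    rw [Finset.card_image_of_injOn hinj, Finset.card_range, Nat.card_eq_fintype_card]
  rw [finprod_eq_prod_of_fintype, ← himage, Finset.prod_image hinj]

end Generator

section Kummer

variable {p : ℕ} [hp : Fact p.Prime] {K L : Type} [Field K] [NumberField K] [Field L]
  [NumberField L] [Algebra K L] {G : Type} [Group G] [Finite G] [MulSemiringAction G L]
  [IsGaloisGroup G K L] (hG : Nat.card G = p) {ζ : K} (hζ : IsPrimitiveRoot ζ p) {x : Kˣ} {β : Lˣ}
  (hβ : β ^ p = Units.map (algebraMap K L : K →* L) x)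

omit [NumberField K] [NumberField L] [Finite G] in
lemma smul_algebraMap_of_isGaloisGroup (g : G) (c : K) :
    g • algebraMap K L c = algebraMap K L c := by
  haveI := IsGaloisGroup.commutes (G := G) (A := K) (B := L)
  exact smul_algebraMap g c

include hβ in
omit [NumberField K] [NumberField L] [Finite G] [IsGaloisGroup G K L] in
lemma kummer_coe_pow : (β : L) ^ p = algebraMap K L x := by
  have := congrArg Units.val hβ
  simpa using this

include hζ hβ in
omit [NumberField K] [NumberField L] [Finite G] in
/-- every conjugate of `β` is `β` times a root of unity of `K` -/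
lemma exists_smul_eq_root_mul (g : G) : ∃ j : ℕ, g • (β : L) = algebraMap K L (ζ ^ j) * β := by
  haveI : NeZero p := ⟨hp.out.ne_zero⟩
  have hζL : IsPrimitiveRoot (algebraMap K L ζ) p := hζ.map_of_injective (algebraMap K L).injective
  have hβ0 : (β : L) ≠ 0 := β.ne_zero
  have h1 : (g • (β : L) / β) ^ p = 1 := by
    rw [div_pow, ← smul_pow', kummer_coe_pow hβ, smul_algebraMap_of_isGaloisGroup,
      div_self ((algebraMap K L).injective.ne_iff' (map_zero _) |>.2 x.ne_zero)]
  obtain ⟨j, -, hj⟩ := hζL.eq_pow_of_pow_eq_one h1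
  refine ⟨j, ?_⟩
  rw [map_pow, hj, div_mul_cancel₀ _ hβ0]

include hG hζ hβ in
omit [NumberField K] [NumberField L] in
/-- **the norm of `β` is `x`** (`p` odd) -/
theorem finprod_smul_kummer (hp2 : p ≠ 2) : ∏ᶠ g : G, g • (β : L) = algebraMap K L x := by
  haveI : Fact (Nat.card G).Prime := ⟨hG ▸ hp.out⟩
  obtain ⟨g₀, hg₀⟩ := (isCyclic_of_prime_card (α := G) rfl).exists_generator
  obtain ⟨j, hj⟩ := exists_smul_eq_root_mul hζ hβ g₀
  set ξ : L := algebraMap K L (ζ ^ j) with hξ
  have hξp : ξ ^ p = 1 := by
    rw [hξ, ← map_pow, ← pow_mul, mul_comm, pow_mul, hζ.pow_eq_one, one_pow, map_one]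
  have hpow : ∀ i : ℕ, g₀ ^ i • (β : L) = ξ ^ i * β := by
    intro i
    induction i with
    | zero => simp
    | succ i ih =>
      rw [pow_succ', mul_smul, ih, smul_mul', hj, smul_pow', hξ, smul_algebraMap_of_isGaloisGroup]
      ring
  rw [finprod_eq_prod_range_of_generator g₀ hg₀, hG]
  simp only [hpow]
  rw [Finset.prod_mul_distrib, Finset.prod_const, Finset.card_range, Finset.prod_pow_eq_pow_sum,
    kummer_coe_pow hβ]
  have hodd : Odd p := hp.out.odd_of_ne_two hp2
  obtain ⟨m, hm⟩ := hodd
  have hsum : ∑ i ∈ Finset.range p, i = p * m := by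
    have := Finset.sum_range_id_mul_two p
    have h2 : p * (p - 1) = (p * m) * 2 := by
      rw [hm]
      simp only [Nat.add_sub_cancel]
      ring
    rw [h2] at this
    exact Nat.eq_of_mul_eq_mul_right (by norm_num) this
  rw [hsum, pow_mul, hξp, one_pow, one_mul]

variable {q : ℕ} [Fact q.Prime]

include hG hζ hβ in
/-- the norm of `β`, semi-locally -/
theorem SL.normProd_unitsIncl_kummer (hp2 : p ≠ 2) :
    normProd G (SL.unitsIncl q L β) = SL.unitsMap q (algebraMap K L) (SL.unitsIncl q K x) := by
  classical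
  letI := Fintype.ofFinite G
  have h := finprod_smul_kummer hG hζ hβ hp2
  rw [finprod_eq_prod_of_fintype] at h
  rw [normProd_apply, finprod_eq_prod_of_fintype]
  apply Units.ext
  rw [Units.coe_prod]
  have h1 : ∀ g : G, ((g • SL.unitsIncl q L β : (SL q L)ˣ) : SL q L) = SL.incl q L (g • (β : L)) := by
    intro g
    rw [SL.coe_smul_units]
    exact SL.smul_incl G q g (β : L)
  simp only [h1]
  rw [← map_prod, h]
  rfl

include hζ hβ in
/-- **Split places of a Kummer extension**: if `x` is a `p`-th power in `K_w`, the places of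
`L = K(x^{1/p})` above `w` have trivial stabilizers. -/
theorem Place.free_of_kummer (hfaith : ∀ g : G, g • (β : L) = β → g = 1) (w : Place q K)
    (y : (Kv w)ˣ) (hy : y ^ p = Kv.unitsEmb w x) :
    ∀ w' : Place q L, Place.under (algebraMap K L) w' = w → ∀ g : G, g • w' = w' → g = 1 := by
  haveI : NeZero p := ⟨hp.out.ne_zero⟩
  intro w' hw' g hg
  subst hw'
  apply hfaith
  apply (Kv.emb w').injective
  have key : ∃ t : Kv (Place.under (algebraMap K L) w'),
      Kv.emb w' (β : L) = Kv.map (algebraMap K L) w' t := by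
    have hy' : (y : Kv (Place.under (algebraMap K L) w')) ^ p
        = Kv.emb (Place.under (algebraMap K L) w') (x : K) := by
      have := congrArg Units.val hy
      rw [Units.val_pow_eq_pow_val] at this
      exact this
    have hy0 : Kv.map (algebraMap K L) w' (y : Kv (Place.under (algebraMap K L) w')) ≠ 0 := by
      rw [Ne, map_eq_zero]
      exact y.ne_zero
    have h1 : (Kv.emb w' (β : L)) ^ p
        = (Kv.map (algebraMap K L) w' (y : Kv (Place.under (algebraMap K L) w'))) ^ p := by
      rw [← map_pow, kummer_coe_pow hβ, ← Kv.map_emb, ← hy', map_pow]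
    have h2 : (Kv.emb w' (β : L) / Kv.map (algebraMap K L) w' (y : Kv _)) ^ p = 1 := by
      rw [div_pow, h1, div_self (pow_ne_zero _ hy0)]
    have hζ' : IsPrimitiveRoot (Kv.map (algebraMap K L) w'
        (Kv.emb (Place.under (algebraMap K L) w') ζ)) p :=
      (hζ.map_of_injective (Kv.emb _).injective).map_of_injective (Kv.map_injective _ w')
    obtain ⟨j, -, hj⟩ := hζ'.eq_pow_of_pow_eq_one h2
    refine ⟨Kv.emb _ ζ ^ j * (y : Kv (Place.under (algebraMap K L) w')), ?_⟩
    rw [map_mul, map_pow, hj, div_mul_cancel₀ _ hy0]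
  obtain ⟨t, ht⟩ := key
  have h3 := Kv.smul_emb w' (⟨g, hg⟩ : decompGroup G w') (β : L)
  rw [← h3, ht]
  exact Kv.smul_map w' _ t

end Kummer

section Stable

variable {q : ℕ} [Fact q.Prime] {K L : Type} [Field K] [NumberField K] [Field L]
  [NumberField L] [Algebra K L] {G : Type} [Group G] [Finite G] [MulSemiringAction G L]
  [IsGaloisGroup G K L]

omit [Finite G] in
/-- the set of places above a given place is stable under the Galois group -/
lemma Place.image_over [DecidableEq (Place q K)] [DecidableEq (Place q L)] [Fintype (Place q L)]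
    (g : G) (w : Place q K) :
    (Place.over (algebraMap K L) w).image (g • ·) = Place.over (algebraMap K L) w := by
  ext w'
  rw [Finset.mem_image, Place.mem_over]
  constructor
  · rintro ⟨w'', hw'', rfl⟩
    rw [Place.under_smul]
    exact Place.mem_over.1 hw''
  · intro h
    refine ⟨g⁻¹ • w', ?_, smul_inv_smul g w'⟩
    rw [Place.mem_over, Place.under_smul, h]

omit [NumberField K] [Algebra K L] [IsGaloisGroup G K L] in
/-- the norm commutes with the projection on a stable set of places -/
lemma SL.normProd_projOn_of_stable [DecidableEq (Place q L)] (T : Finset (Place q L))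
    (hT : ∀ g : G, T.image (g • ·) = T) (b : (SL q L)ˣ) :
    normProd G (SL.projOn T b) = SL.projOn T (normProd G b) := by
  classical
  letI := Fintype.ofFinite G
  rw [normProd_apply, normProd_apply, finprod_eq_prod_of_fintype, finprod_eq_prod_of_fintype,
    map_prod]
  refine Finset.prod_congr rfl fun g _ => ?_
  rw [SL.smul_projOn, hT]

omit [Algebra K L] in
/-- the image of a unit of `K_v` in `L_w` is a unit -/
lemma ordW_map_eq_one (f : K →+* L) (w' : Place q L) (a : (Kv (Place.under f w'))ˣ)
    (ha : ordW (Place.under f w') a = 1) :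
    ordW w' (Units.map (Kv.map f w' : Kv (Place.under f w') →* Kv w') a) = 1 := by
  rw [ordW_eq_one_iff] at ha ⊢
  constructor
  · exact ha.1.map (Kv.map f w')
  · rw [← map_inv]
    exact ha.2.map (Kv.map f w')

lemma Kv.unitsEmb_map (f : K →+* L) (w' : Place q L) (x : Kˣ) :
    Kv.unitsEmb w' (Units.map (f : K →* L) x)
      = Units.map (Kv.map f w' : Kv (Place.under f w') →* Kv w') (Kv.unitsEmb (Place.under f w') x) :=
  Units.ext rfl

lemma eq_one_of_pow_eq_one_multiplicative_int {n : ℕ} (hn : n ≠ 0) {m : Multiplicative ℤ}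
    (h : m ^ n = 1) : m = 1 := by
  have h1 : Multiplicative.toAdd (m ^ n) = 0 := by rw [h]; rfl
  rw [toAdd_pow, nsmul_eq_mul, mul_eq_zero] at h1
  rcases h1 with h1 | h1
  · exact absurd (by exact_mod_cast h1) hn
  · exact h1

end Stable

section KummerUnits

variable {p : ℕ} [hp : Fact p.Prime] {K L : Type} [Field K] [NumberField K] [Field L]
  [NumberField L] [Algebra K L] {G : Type} [Group G] [Finite G] [MulSemiringAction G L]
  [IsGaloisGroup G K L] (hG : Nat.card G = p) {ζ : K} (hζ : IsPrimitiveRoot ζ p) {x : Kˣ} {β : Lˣ}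
  (hβ : β ^ p = Units.map (algebraMap K L : K →* L) x)
  {q : ℕ} [Fact q.Prime] [DecidableEq (Place q K)]

include hβ in
omit [Finite G] [IsGaloisGroup G K L] [MulSemiringAction G L] [DecidableEq (Place q K)] in
/-- `β` is a unit at the places above a place where `x` is a unit -/
lemma ordW_unitsEmb_kummer (w' : Place q L)
    (hx : ordW (Place.under (algebraMap K L) w') (Kv.unitsEmb (Place.under (algebraMap K L) w') x) = 1) :
    ordW w' (Kv.unitsEmb w' β) = 1 := by
  apply eq_one_of_pow_eq_one_multiplicative_int hp.out.ne_zero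
  rw [← map_pow, ← map_pow, hβ, Kv.unitsEmb_map]
  exact ordW_map_eq_one _ w' _ hx

include hG hζ hβ in
/-- the element of `(ℚ_q ⊗ K)ˣ` with component `x` at `w` and `1` elsewhere is the norm of an
integral unit, if `x` is a unit at `w` -/
theorem SL.projOn_singleton_unitsIncl_mem_normUnitGroup (hp2 : p ≠ 2) (w : Place q K)
    (hxw : ordW w (Kv.unitsEmb w x) = 1) :
    SL.projOn {w} (SL.unitsIncl q K x) ∈ SL.normUnitGroup K L G q := by
  classical
  letI := Fintype.ofFinite (Place q L)
  refine ⟨SL.projOn (Place.over (algebraMap K L) w) (SL.unitsIncl q L β), ?_, ?_⟩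
  · refine (SL.mem_unitGroup_iff_forall_unitsProj _).2 ?_
    intro w'
    rw [SL.unitsProj_projOn]
    split_ifs with h
    · rw [SL.unitsProj_unitsIncl]
      apply ordW_unitsEmb_kummer hβ
      rw [Place.mem_over.1 h]
      exact hxw
    · exact map_one _
  · rw [SL.normProd_projOn_of_stable _ (fun g => Place.image_over g w),
      SL.normProd_unitsIncl_kummer hG hζ hβ hp2, SL.unitsMap_projOn_singleton]

include hG hζ hβ in
/-- **Units are norms in a Kummer extension**: at a place `w ∤ p` of `K` at which `x` is a unit, all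
units are norms of units from `L = K(x^{1/p})`. -/
theorem SL.projOn_singleton_mem_normUnitGroup_of_kummer (hp2 : p ≠ 2)
    (hfaith : ∀ g : G, g • (β : L) = β → g = 1) (w : Place q K) (hqp : q ≠ p)
    (hxw : ordW w (Kv.unitsEmb w x) = 1) {u : (SL q K)ˣ} (hu : u ∈ SL.unitGroup q K) :
    SL.projOn {w} u ∈ SL.normUnitGroup K L G q := by
  have hy : ordW w (SL.unitsProj w u) = 1 := ((SL.mem_unitGroup_iff_forall_unitsProj _).1 hu) w
  by_cases hpow : ∃ z : (Kv w)ˣ, z ^ p = Kv.unitsEmb w x
  · obtain ⟨z, hz⟩ := hpow
    have hfree := Place.free_of_kummer (G := G) hζ hβ hfaith w z hz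
    exact SL.projOn_singleton_mem_normUnitGroup_of_free (G := G) (L := L) w hfree hu
  · push Not at hpow
    obtain ⟨i, z, hz1, hyz⟩ := Kv.exists_eq_pow_mul_pow w hqp hζ _ _ hxw hy hpow
    rw [SL.projOn_singleton, hyz, map_mul, map_pow, map_pow]
    refine mul_mem (pow_mem ?_ i) ?_
    · have h1 : SL.projOn {w} (SL.unitsIncl q K x) = SL.unitsSingle w (Kv.unitsEmb w x) := by
        rw [SL.projOn_singleton, SL.unitsProj_unitsIncl]
      rw [← h1]
      exact SL.projOn_singleton_unitsIncl_mem_normUnitGroup hG hζ hβ hp2 w hxw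
    · rw [← hG]
      exact SL.pow_card_mem_normUnitGroup ((SL.unitsSingle_mem_unitGroup_iff w z).2 hz1)

end KummerUnits

end

end Fermat.Agent.CFT.Global
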