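/-
P4 / Layer C3 (second inequality): the key lemma `Kˣ ∩ E = (K_{S ∪ T})ᵖ`.

If `S` is large, `T` is a finite set of places outside `S` such that `K_S → ∏_{v ∈ T} U_v / U_vᵖ` is
onto (`AuxSurj`), then an `(S ∪ T)`-unit which is a `p`-th power at all places of `S` is a `p`-th
power (by the first inequality applied to `K(x^{1/p})/K`).
-/
import Fermat.Agent.Lib.CFT.Global.SecondIneq.KummerLocal
import Fermat.Agent.Lib.CFT.Global.SecondIneq.KummerExt
import Fermat.Agent.Lib.CFT.Global.SecondIneq.AuxUnits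

set_option autoImplicit false
set_option linter.style.haveILetI false
set_option linter.unusedSectionVars false

open scoped TensorProduct

namespace Fermat.Agent.CFT.Global

open Fermat.Agent.CFT.Local

noncomputable section

section Faithful

variable {p : ℕ} [hp : Fact p.Prime] {K L : Type} [Field K] [NumberField K] [Field L]
  [NumberField L] [Algebra K L] {G : Type} [Group G] [Finite G] [MulSemiringAction G L]
  [IsGaloisGroup G K L]

omit [NumberField K] [NumberField L] [Finite G] in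
/-- in a Kummer extension `K(x^{1/p})` with `x` not a `p`-th power, only the identity fixes
`x^{1/p}` -/
theorem kummer_faithful (hG : Nat.card G = p) {x : Kˣ} {β : Lˣ}
    (hβ : β ^ p = Units.map (algebraMap K L : K →* L) x) (hx : ∀ y : Kˣ, y ^ p ≠ x) :
    ∀ g : G, g • (β : L) = β → g = 1 := by
  intro g hg
  by_contra hg1
  have htop : Subgroup.zpowers g = ⊤ := zpowers_eq_top_of_prime_card hG hg1
  have hall : ∀ h : G, h • (β : L) = β := by
    intro h
    have hh : h ∈ Subgroup.zpowers g := by rw [htop]; exact Subgroup.mem_top h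
    obtain ⟨k, rfl⟩ := Subgroup.mem_zpowers_iff.1 hh
    have hfix : g ∈ MulAction.stabilizer G (β : L) := hg
    exact (MulAction.stabilizer G (β : L)).zpow_mem hfix k
  haveI := IsGaloisGroup.isInvariant (G := G) (A := K) (B := L)
  obtain ⟨b, hb⟩ := Algebra.IsInvariant.isInvariant (A := K) (B := L) (G := G) (β : L) hall
  have hb0 : b ≠ 0 := by
    rintro rfl
    rw [map_zero] at hb
    exact β.ne_zero hb.symm
  apply hx (Units.mk0 b hb0)
  apply Units.map_injective (f := (algebraMap K L : K →* L)) (algebraMap K L).injective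
  rw [map_pow, ← hβ]
  congr 1
  apply Units.ext
  exact hb

end Faithful

section Key

variable {p : ℕ} [hp : Fact p.Prime] {K : Type} [Field K] [NumberField K]

/-- the condition on the auxiliary set `T`: `K_S → ∏_{v ∈ T} U_v / U_vᵖ` is onto -/
def AuxSurj (p : ℕ) (S : Finset Nat.Primes) (T : Finset (GPlace K)) : Prop :=
  ∀ u : (∀ v : GPlace K, (Kv v.2)ˣ), (∀ v ∈ T, ordW v.2 (u v) = 1) →
    ∃ c ∈ SUnits S K, ∀ v ∈ T, ∃ z : (Kv v.2)ˣ, Kv.unitsEmb v.2 c = u v * z ^ p

/-- **The key lemma.** -/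
theorem exists_pow_eq_of_mem_STUnits (hp2 : p ≠ 2) (hFI : FirstInequality p) {ζ : K}
    (hζ : IsPrimitiveRoot ζ p) {S : Finset Nat.Primes} (hS : IsLargeSet S K)
    (hpS : (⟨p, hp.out⟩ : Nat.Primes) ∈ S) (T : Finset (GPlace K)) (hT : ∀ v ∈ T, v.1 ∉ S)
    (hsurj : AuxSurj p S T) (x : Kˣ) (hx : x ∈ STUnits K S T)
    (hxS : ∃ z : JS S K, z ^ p = JS.diag S K x) : ∃ y : Kˣ, y ^ p = x := by
  classical
  by_contra hno
  push Not at hno
  obtain ⟨L, iF, iN, iA, G, iG, iFin, iAct, iGal, hG, β, hβ⟩ :=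
    exists_kummer_extension K p ζ hζ x hno
  have hfaith := kummer_faithful (G := G) hG hβ hno
  obtain ⟨zS, hzS⟩ := hxS
  -- units outside `S ∪ T` are norms of units
  have hunit : ∀ (q : Nat.Primes) (w : Place (q : ℕ) K), q ∉ S → (⟨q, w⟩ : GPlace K) ∉ T →
      ∀ u' ∈ SL.unitGroup (q : ℕ) K, SL.projOn {w} u' ∈ SL.normUnitGroup K L G (q : ℕ) := by
    intro q w hq hw u' hu'
    have hqp : (q : ℕ) ≠ p := by
      intro h
      apply hq
      have : q = ⟨p, hp.out⟩ := Subtype.ext h
      rw [this]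
      exact hpS
    exact SL.projOn_singleton_mem_normUnitGroup_of_kummer hG hζ hβ hp2 hfaith w hqp
      (hx ⟨q, w⟩ hq hw) hu'
  apply hFI K L G hG
  rw [eq_top_iff]
  intro y _
  obtain ⟨a, j, u, hu, hy⟩ := hS.exists_decomp y
  set uT : ∀ v : GPlace K, (Kv v.2)ˣ := fun v => SL.unitsProj v.2 (FinIdele.comp v.1 u) with huT
  have huT1 : ∀ v ∈ T, ordW v.2 (uT v) = 1 := fun v hv =>
    (SL.mem_unitGroup_iff_forall_unitsProj _).1 (hu.2 v.1 (hT v hv)) v.2
  obtain ⟨c, hc, hcT⟩ := hsurj uT huT1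
  set y' : FinIdele K := JS.toFinIdele S K j * u * (FinIdele.princ K c)⁻¹ with hy'
  have hyy' : FinIdele.princ K (a * c) * y' = y := by
    rw [hy, hy', map_mul]
    simp only [mul_assoc]
    congr 1
    rw [mul_comm (FinIdele.princ K c), mul_assoc, mul_assoc, inv_mul_cancel, mul_one]
  rw [mem_normSubgroup_iff]
  refine ⟨a * c, y', ?_, hyy'⟩
  -- components of `y'` outside `S`
  have hcomp : ∀ q : Nat.Primes, q ∉ S →
      FinIdele.comp q y' = FinIdele.comp q u * (SL.unitsIncl (q : ℕ) K c)⁻¹ := by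
    intro q hq
    rw [hy', map_mul, map_mul, JS.comp_toFinIdele_of_notMem _ hq, one_mul, map_inv]
    rfl
  have hcompU : ∀ q : Nat.Primes, q ∉ S → FinIdele.comp q y' ∈ SL.unitGroup (q : ℕ) K := by
    intro q hq
    rw [hcomp q hq]
    exact mul_mem (hu.2 q hq) (inv_mem (hc q hq))
  apply mem_normIdeles_of_forall
  · intro q
    apply SL.mem_of_forall_projOn_singleton
    intro w
    by_cases hq : q ∈ S
    · -- `x` is a `p`-th power at `w`
      have h1 : zS ⟨q, hq⟩ ^ p = SL.unitsIncl (q : ℕ) K x := by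
        have := congrFun hzS ⟨q, hq⟩
        exact this
      have h2 : SL.unitsProj w (zS ⟨q, hq⟩) ^ p = Kv.unitsEmb w x := by
        rw [← map_pow, h1, SL.unitsProj_unitsIncl]
      exact SL.projOn_singleton_mem_normGroup_of_free (G := G) (L := L) w
        (Place.free_of_kummer (G := G) hζ hβ hfaith w _ h2) _
    · by_cases hw : (⟨q, w⟩ : GPlace K) ∈ T
      · obtain ⟨z, hz⟩ := hcT ⟨q, w⟩ hw
        refine SL.projOn_singleton_mem_normGroup_of_pow (G := G) (L := L) w _ z⁻¹ ?_
        rw [hcomp q hq, map_mul, map_inv, SL.unitsProj_unitsIncl, hG]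
        have hz' : Kv.unitsEmb w c = uT ⟨q, w⟩ * z ^ p := hz
        rw [hz', huT, mul_inv, mul_inv_cancel_left, inv_pow]
      · exact SL.normUnitGroup_le_normGroup _ (hunit q w hq hw _ (hcompU q hq))
  · refine ((S ∪ T.image Sigma.fst).finite_toSet).subset ?_
    intro q hq
    by_contra hqS
    apply hq
    rw [Finset.mem_coe, Finset.mem_union, not_or] at hqS
    apply SL.mem_of_forall_projOn_singleton
    intro w
    refine hunit q w hqS.1 (fun hw => hqS.2 ?_) _ (hcompU q hqS.1)
    exact Finset.mem_image.2 ⟨⟨q, w⟩, hw, rfl⟩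

end Key

end

end Fermat.Agent.CFT.Global
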