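/-
P4 / Layer C3 (second inequality): the auxiliary set of places `T`.

`L = K(a^{1/p})`, `a ∈ K_S`.  We construct places `v₁, …, v_t ∉ S` of `K`, split in `L`, such that
`K_S → ∏ U_{v_i} / U_{v_i}ᵖ` is onto with kernel `⟨a⟩ K_Sᵖ`; in particular `[K_S : K_Sᵖ] = p^{t+1}`.

* `kummer_pow_mem` : `Kˣ ∩ Lˣᵖ = ⟨a⟩ Kˣᵖ` (Kummer theory);
* `exists_split_place_not_pow` : an `S`-unit `c ∉ ⟨a⟩ Kˣᵖ` is not a local `p`-th power at some
  place outside `S` which splits in `L` (first inequality for `L(c^{1/p})/L` + weak approximation);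
* `exists_aux_places` : the construction of `T`.
-/
import Fermat.Agent.Lib.CFT.Global.SecondIneq.KeyLemma
import Fermat.Agent.Lib.CFT.Global.SecondIneq.WeakApprox

set_option autoImplicit false
set_option linter.style.haveILetI false
set_option linter.unusedSectionVars false

open scoped TensorProduct

namespace Fermat.Agent.CFT.Global

open Fermat.Agent.CFT.Local

noncomputable section

section Kummer

variable {p : ℕ} [hp : Fact p.Prime] {K L : Type} [Field K] [NumberField K] [Field L]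
  [NumberField L] [Algebra K L] {G : Type} [Group G] [Finite G] [MulSemiringAction G L]
  [IsGaloisGroup G K L] (hG : Nat.card G = p) {ζ : K} (hζ : IsPrimitiveRoot ζ p) {a : Kˣ} {α : Lˣ}
  (hα : α ^ p = Units.map (algebraMap K L : K →* L) a)
  (hfaith : ∀ g : G, g • (α : L) = α → g = 1)

include hG hζ hα hfaith in
omit [NumberField K] [NumberField L] in
/-- **Kummer theory**: `Kˣ ∩ Lˣᵖ = ⟨a⟩ Kˣᵖ` -/
theorem kummer_pow_mem (c : Kˣ) (γ : Lˣ) (hγ : γ ^ p = Units.map (algebraMap K L : K →* L) c) :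
    ∃ (i : ℕ) (k : Kˣ), c = a ^ i * k ^ p := by
  haveI : NeZero p := ⟨hp.out.ne_zero⟩
  haveI : Fact (Nat.card G).Prime := ⟨hG ▸ hp.out⟩
  obtain ⟨g₀, hg₀⟩ := (isCyclic_of_prime_card (α := G) rfl).exists_generator
  have hg₀1 : g₀ ≠ 1 := by
    rintro rfl
    have hcard : Nat.card G = 1 := by
      rw [Nat.card_eq_one_iff_unique]
      refine ⟨⟨fun x y => ?_⟩, ⟨1⟩⟩
      have hx := hg₀ x
      have hy := hg₀ y
      rw [Subgroup.zpowers_one_eq_bot, Subgroup.mem_bot] at hx hy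
      rw [hx, hy]
    rw [hG] at hcard
    exact hp.out.one_lt.ne' hcard
  obtain ⟨j, hj⟩ := exists_smul_eq_root_mul hζ hα g₀
  obtain ⟨m, hm⟩ := exists_smul_eq_root_mul hζ hγ g₀
  have hα0 : (α : L) ≠ 0 := α.ne_zero
  have hγ0 : (γ : L) ≠ 0 := γ.ne_zero
  -- `ζ ^ j` is a primitive root
  have hj1 : ζ ^ j ≠ 1 := by
    intro h
    apply hg₀1
    apply hfaith
    rw [hj, h, map_one, one_mul]
  have hjp : ¬ p ∣ j := by
    rintro ⟨d, rfl⟩
    apply hj1
    rw [pow_mul, hζ.pow_eq_one, one_pow]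
  have hprim : IsPrimitiveRoot (ζ ^ j) p :=
    hζ.pow_of_coprime j ((Nat.Prime.coprime_iff_not_dvd hp.out).2 hjp).symm
  have hmp : (ζ ^ m) ^ p = 1 := by rw [← pow_mul, mul_comm, pow_mul, hζ.pow_eq_one, one_pow]
  obtain ⟨i, -, hi⟩ := hprim.eq_pow_of_pow_eq_one hmp
  -- `δ = γ / α ^ i` is fixed by `g₀`
  set δ : L := (γ : L) / (α : L) ^ i with hδ
  have hδ0 : δ ≠ 0 := div_ne_zero hγ0 (pow_ne_zero _ hα0)
  have hfix₀ : g₀ • δ = δ := by
    rw [hδ, div_eq_mul_inv, smul_mul', smul_inv'', smul_pow', hm, hj, ← hi, mul_pow, map_pow,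
      map_pow, ← div_eq_mul_inv, ← div_eq_mul_inv]
    rw [mul_div_mul_left]
    exact pow_ne_zero _ (pow_ne_zero _ ((map_ne_zero _).2 (hζ.ne_zero hp.out.ne_zero)))
  have hall : ∀ h : G, h • δ = δ := by
    intro h
    obtain ⟨k, rfl⟩ := Subgroup.mem_zpowers_iff.1 (hg₀ h)
    have hfix : g₀ ∈ MulAction.stabilizer G δ := hfix₀
    exact (MulAction.stabilizer G δ).zpow_mem hfix k
  haveI := IsGaloisGroup.isInvariant (G := G) (A := K) (B := L)
  obtain ⟨k, hk⟩ := Algebra.IsInvariant.isInvariant (A := K) (B := L) (G := G) δ hall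
  have hk0 : k ≠ 0 := by
    rintro rfl
    rw [map_zero] at hk
    exact hδ0 hk.symm
  refine ⟨i, Units.mk0 k hk0, ?_⟩
  apply Units.ext
  apply (algebraMap K L).injective
  have h1 : (γ : L) = (α : L) ^ i * algebraMap K L k := by
    rw [hk, hδ, mul_div_cancel₀ _ (pow_ne_zero _ hα0)]
  have h2 : algebraMap K L (c : K) = (γ : L) ^ p := (kummer_coe_pow hγ).symm
  rw [h2, h1, mul_pow, ← pow_mul, mul_comm i p, pow_mul, kummer_coe_pow hα]
  simp

end Kummer

section Claim

variable {p : ℕ} [hp : Fact p.Prime] {K L : Type} [Field K] [NumberField K] [Field L]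
  [NumberField L] [Algebra K L] {G : Type} [Group G] [Finite G] [MulSemiringAction G L]
  [IsGaloisGroup G K L] (hG : Nat.card G = p) {ζ : K} (hζ : IsPrimitiveRoot ζ p) {a : Kˣ} {α : Lˣ}
  (hα : α ^ p = Units.map (algebraMap K L : K →* L) a)
  (hfaith : ∀ g : G, g • (α : L) = α → g = 1)

include hζ hα in
omit [Finite G] [MulSemiringAction G L] [IsGaloisGroup G K L] in
/-- an `S`-unit `c` which is a local `p`-th power at all places outside `S` which split in
`L = K(a^{1/p})` becomes a local `p`-th power at all places of `L` outside `S` -/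
lemma exists_pow_eq_unitsEmb_map {S : Finset Nat.Primes} (hpS : (⟨p, hp.out⟩ : Nat.Primes) ∈ S)
    (ha : a ∈ SUnits S K) {c : Kˣ} (hc : c ∈ SUnits S K)
    (h : ∀ v : GPlace K, v.1 ∉ S → a ∈ localPow p v → c ∈ localPow p v)
    (q : Nat.Primes) (hq : q ∉ S) (w' : Place (q : ℕ) L) :
    ∃ z : (Kv w')ˣ, z ^ p = Kv.unitsEmb w' (Units.map (algebraMap K L : K →* L) c) := by
  set w := Place.under (algebraMap K L) w' with hw
  have hqp : (q : ℕ) ≠ p := by
    intro h'
    apply hq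
    have : q = ⟨p, hp.out⟩ := Subtype.ext h'
    rw [this]
    exact hpS
  rw [Kv.unitsEmb_map]
  by_cases hsplit : a ∈ localPow p ⟨q, w⟩
  · obtain ⟨z, hz⟩ := mem_localPow_iff.1 (h ⟨q, w⟩ hq hsplit)
    refine ⟨Units.map (Kv.map (algebraMap K L) w' : Kv w →* Kv w') z, ?_⟩
    rw [← map_pow]
    exact congrArg _ hz
  · have ha1 : ordW w (Kv.unitsEmb w a) = 1 := mem_SUnits_iff_localOrd.1 ha ⟨q, w⟩ hq
    have hc1 : ordW w (Kv.unitsEmb w c) = 1 := mem_SUnits_iff_localOrd.1 hc ⟨q, w⟩ hq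
    have hnp : ∀ z : (Kv w)ˣ, z ^ p ≠ Kv.unitsEmb w a := fun z hz => hsplit ⟨z, hz⟩
    obtain ⟨i, z, -, hiz⟩ := Kv.exists_eq_pow_mul_pow w hqp hζ _ _ ha1 hc1 hnp
    refine ⟨Kv.unitsEmb w' α ^ i * Units.map (Kv.map (algebraMap K L) w' : Kv w →* Kv w') z, ?_⟩
    rw [hiz, map_mul, map_pow, map_pow, mul_pow, ← pow_mul, mul_comm i p, pow_mul, ← map_pow, hα,
      Kv.unitsEmb_map]

include hG hζ hα hfaith in
/-- **Existence of auxiliary places**: an `S`-unit `c ∉ ⟨a⟩ Kˣᵖ` fails to be a local `p`-th power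
at some place outside `S` which splits in `L = K(a^{1/p})`. -/
theorem exists_split_place_not_pow (hFI : FirstInequality p) {S : Finset Nat.Primes}
    (hpS : (⟨p, hp.out⟩ : Nat.Primes) ∈ S) (ha : a ∈ SUnits S K) {c : Kˣ} (hc : c ∈ SUnits S K)
    (hc' : ∀ (i : ℕ) (k : Kˣ), c ≠ a ^ i * k ^ p) :
    ∃ v : GPlace K, v.1 ∉ S ∧ a ∈ localPow p v ∧ c ∉ localPow p v := by
  classical
  by_contra hcon
  push Not at hcon
  set c' : Lˣ := Units.map (algebraMap K L : K →* L) c with hc'def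
  have hno : ∀ γ : Lˣ, γ ^ p ≠ c' := by
    intro γ hγ
    obtain ⟨i, k, hik⟩ := kummer_pow_mem hG hζ hα hfaith c γ hγ
    exact hc' i k hik
  have hζL : IsPrimitiveRoot (algebraMap K L ζ) p :=
    hζ.map_of_injective (algebraMap K L).injective
  obtain ⟨L', iF, iN, iA, G', iG, iFin, iAct, iGal, hG', β, hβ⟩ :=
    exists_kummer_extension L p (algebraMap K L ζ) hζL c' hno
  have hfaith' := kummer_faithful (G := G') hG' hβ hno
  -- all places of `L` outside `S` split in `L'`
  have hfree : ∀ (q : Nat.Primes) (_ : q ∉ S) (w' : Place (q : ℕ) L),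
      ∀ w'' : Place (q : ℕ) L', Place.under (algebraMap L L') w'' = w' →
        ∀ g : G', g • w'' = w'' → g = 1 := by
    intro q hq w'
    obtain ⟨z, hz⟩ := exists_pow_eq_unitsEmb_map hζ hα hpS ha hc hcon q hq w'
    exact Place.free_of_kummer (G := G') hζL hβ hfaith' w' z hz
  apply hFI L L' G' hG'
  rw [eq_top_iff]
  intro y _
  obtain ⟨b, z, hbz⟩ := JS.exists_diag_mul_pow S L p hp.out.ne_zero (FinIdele.partS S L y)
  set y' : FinIdele L := y * (FinIdele.princ L b)⁻¹ with hy'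
  rw [mem_normSubgroup_iff]
  refine ⟨b, y', ?_, by rw [hy', mul_comm y, mul_inv_cancel_left]⟩
  apply mem_normIdeles_of_forall
  · intro q
    by_cases hq : q ∈ S
    · have h1 : FinIdele.comp q y' = (z ⟨q, hq⟩) ^ p := by
        have h2 := congrFun hbz ⟨q, hq⟩
        have h3 : FinIdele.comp q y = SL.unitsIncl (q : ℕ) L b * (z ⟨q, hq⟩) ^ p := h2
        rw [hy', map_mul, map_inv, h3]
        have h4 : FinIdele.comp q (FinIdele.princ L b) = SL.unitsIncl (q : ℕ) L b := rfl
        rw [h4, mul_comm (SL.unitsIncl (q : ℕ) L b), mul_inv_cancel_right]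
      rw [h1, ← hG']
      exact SL.pow_card_mem_normGroup _
    · apply SL.mem_of_forall_projOn_singleton
      intro w'
      exact SL.projOn_singleton_mem_normGroup_of_free (G := G') (L := L') w' (hfree q hq w') _
  · refine ((S : Set Nat.Primes).toFinite.union y'.finite_notMem_unitGroup).subset ?_
    intro q hq
    by_contra hqS
    apply hq
    rw [Set.mem_union, not_or] at hqS
    have hqS2 : FinIdele.comp q y' ∈ SL.unitGroup (q : ℕ) L := by
      by_contra h
      exact hqS.2 h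
    apply SL.mem_of_forall_projOn_singleton
    intro w'
    exact SL.projOn_singleton_mem_normUnitGroup_of_free (G := G') (L := L') w'
      (hfree q (fun h => hqS.1 h) w') hqS2

end Claim

end

end Fermat.Agent.CFT.Global
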