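/-
P4 / Layer C3 (second inequality): construction of the auxiliary set of places `T`
(`exists_aux_places`).
-/
import Fermat.Agent.Lib.CFT.Global.SecondIneq.AuxPlaces

set_option autoImplicit false
set_option linter.style.haveILetI false
set_option linter.unusedSectionVars false

open scoped TensorProduct

namespace Fermat.Agent.CFT.Global

open Fermat.Agent.CFT.Local

noncomputable section

section Kernel

variable {K : Type} [Field K] [NumberField K]

/-- the `S`-units which are local `p`-th powers at all places of `T` -/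
def auxKernel (p : ℕ) (S : Finset Nat.Primes) (T : Finset (GPlace K)) : Subgroup Kˣ where
  carrier := {c | c ∈ SUnits S K ∧ ∀ v ∈ T, c ∈ localPow p v}
  one_mem' := ⟨one_mem _, fun _ _ => one_mem _⟩
  mul_mem' := fun hx hy => ⟨mul_mem hx.1 hy.1, fun v hv => mul_mem (hx.2 v hv) (hy.2 v hv)⟩
  inv_mem' := fun hx => ⟨inv_mem hx.1, fun v hv => inv_mem (hx.2 v hv)⟩

lemma mem_auxKernel_iff {p : ℕ} {S : Finset Nat.Primes} {T : Finset (GPlace K)} {c : Kˣ} :
    c ∈ auxKernel p S T ↔ c ∈ SUnits S K ∧ ∀ v ∈ T, c ∈ localPow p v := Iff.rfl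

lemma auxKernel_le (p : ℕ) (S : Finset Nat.Primes) (T : Finset (GPlace K)) :
    auxKernel p S T ≤ SUnits S K := fun _ h => h.1

lemma map_pow_le_auxKernel (p : ℕ) (S : Finset Nat.Primes) (T : Finset (GPlace K)) :
    (SUnits S K).map (powMonoidHom p) ≤ auxKernel p S T := by
  rintro _ ⟨x, hx, rfl⟩
  exact ⟨pow_mem hx p, fun v _ => pow_mem_localPow p v x⟩

lemma auxKernel_insert [DecidableEq (GPlace K)] (p : ℕ) (S : Finset Nat.Primes)
    (T : Finset (GPlace K)) (v : GPlace K) :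
    auxKernel p S (insert v T) = auxKernel p S T ⊓ localPow p v := by
  ext c
  rw [Subgroup.mem_inf, mem_auxKernel_iff, mem_auxKernel_iff]
  constructor
  · rintro ⟨h1, h2⟩
    exact ⟨⟨h1, fun v' hv' => h2 v' (Finset.mem_insert_of_mem hv')⟩,
      h2 v (Finset.mem_insert_self v T)⟩
  · rintro ⟨⟨h1, h2⟩, h3⟩
    refine ⟨h1, fun v' hv' => ?_⟩
    rcases Finset.mem_insert.1 hv' with rfl | hv'
    · exact h3
    · exact h2 v' hv'

/-- an element whose `p`-th power is an `S`-unit is an `S`-unit -/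
lemma mem_SUnits_of_pow_mem_SUnits {S : Finset Nat.Primes} {p : ℕ} (hp : p ≠ 0) {k : Kˣ}
    (h : k ^ p ∈ SUnits S K) : k ∈ SUnits S K := by
  rw [mem_SUnits_iff_localOrd] at h ⊢
  intro v hv
  have := h v hv
  rw [map_pow] at this
  exact eq_one_of_pow_eq_one_multiplicative_int hp this

end Kernel

section Data

variable {K : Type} [Field K] [NumberField K]

/-- the inductive invariant of the construction of the auxiliary set `T` -/
structure AuxData (p : ℕ) (S : Finset Nat.Primes) (a : Kˣ) (T : Finset (GPlace K)) : Prop where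
  out : ∀ v ∈ T, v.1 ∉ S
  split : ∀ v ∈ T, a ∈ localPow p v
  surj : AuxSurj p S T
  index : (auxKernel p S T).relIndex (SUnits S K) = p ^ T.card

variable {p : ℕ} [hp : Fact p.Prime] {S : Finset Nat.Primes} {a : Kˣ}

omit hp in
lemma auxData_empty : AuxData p S a (∅ : Finset (GPlace K)) where
  out := fun v hv => absurd hv (Finset.notMem_empty v)
  split := fun v hv => absurd hv (Finset.notMem_empty v)
  surj := fun _ _ => ⟨1, one_mem _, fun v hv => absurd hv (Finset.notMem_empty v)⟩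
  index := by
    rw [Finset.card_empty, pow_zero, Subgroup.relIndex_eq_one]
    intro c hc
    exact ⟨hc, fun v hv => absurd hv (Finset.notMem_empty v)⟩

/-- the local decomposition at a place `v ∉ S` where `c₀` is not a `p`-th power -/
lemma exists_eq_pow_mul_of_notMem_localPow {ζ : K} (hζ : IsPrimitiveRoot ζ p)
    (hpS : (⟨p, hp.out⟩ : Nat.Primes) ∈ S) {v : GPlace K} (hv : v.1 ∉ S) {c₀ : Kˣ}
    (hc₀ : c₀ ∈ SUnits S K) (hc₀v : c₀ ∉ localPow p v) (y : (Kv v.2)ˣ) (hy : ordW v.2 y = 1) :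
    ∃ (i : ℕ) (z : (Kv v.2)ˣ), y = Kv.unitsEmb v.2 c₀ ^ i * z ^ p := by
  have hqp : (v.1 : ℕ) ≠ p := by
    intro h'
    apply hv
    have : v.1 = ⟨p, hp.out⟩ := Subtype.ext h'
    rw [this]
    exact hpS
  have hc1 : ordW v.2 (Kv.unitsEmb v.2 c₀) = 1 := mem_SUnits_iff_localOrd.1 hc₀ v hv
  obtain ⟨i, z, -, h⟩ := Kv.exists_eq_pow_mul_pow v.2 hqp hζ _ y hc1 hy
    (fun z hz => hc₀v ⟨z, hz⟩)
  exact ⟨i, z, h⟩

/-- **The inductive step.** -/
theorem AuxData.insert [DecidableEq (GPlace K)] {ζ : K} (hζ : IsPrimitiveRoot ζ p)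
    (hpS : (⟨p, hp.out⟩ : Nat.Primes) ∈ S) {T : Finset (GPlace K)} (hT : AuxData p S a T)
    {v : GPlace K} (hv : v.1 ∉ S) (hav : a ∈ localPow p v) {c₀ : Kˣ} (hc₀ : c₀ ∈ auxKernel p S T)
    (hc₀v : c₀ ∉ localPow p v) : v ∉ T ∧ AuxData p S a (insert v T) := by
  have hvT : v ∉ T := fun h => hc₀v (hc₀.2 v h)
  refine ⟨hvT, ?_, ?_, ?_, ?_⟩
  · intro v' hv'
    rcases Finset.mem_insert.1 hv' with rfl | hv'
    · exact hv
    · exact hT.out v' hv'
  · intro v' hv'
    rcases Finset.mem_insert.1 hv' with rfl | hv'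
    · exact hav
    · exact hT.split v' hv'
  · intro u hu
    obtain ⟨c₁, hc₁, hc₁T⟩ := hT.surj u (fun v' hv' => hu v' (Finset.mem_insert_of_mem hv'))
    have hy : ordW v.2 (u v / Kv.unitsEmb v.2 c₁) = 1 := by
      rw [map_div, hu v (Finset.mem_insert_self v T),
        show ordW v.2 (Kv.unitsEmb v.2 c₁) = 1 from mem_SUnits_iff_localOrd.1 hc₁ v hv, div_one]
    obtain ⟨i, z, hiz⟩ := exists_eq_pow_mul_of_notMem_localPow hζ hpS hv hc₀.1 hc₀v _ hy
    refine ⟨c₁ * c₀ ^ i, mul_mem hc₁ (pow_mem hc₀.1 i), ?_⟩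
    intro v' hv'
    rcases Finset.mem_insert.1 hv' with rfl | hv'
    · refine ⟨z⁻¹, ?_⟩
      rw [map_mul, map_pow]
      have : Kv.unitsEmb v'.2 c₀ ^ i = u v' / Kv.unitsEmb v'.2 c₁ * (z ^ p)⁻¹ := by
        rw [hiz, mul_inv_cancel_right]
      rw [this, inv_pow]
      rw [mul_comm (u v' / _), mul_comm (Kv.unitsEmb v'.2 c₁), mul_assoc, div_mul_cancel, mul_comm]
    · obtain ⟨z₁, hz₁⟩ := hc₁T v' hv'
      obtain ⟨z₀, hz₀⟩ := mem_localPow_iff.1 (hc₀.2 v' hv')
      refine ⟨z₁ * z₀ ^ i, ?_⟩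
      rw [map_mul, map_pow, hz₁, ← hz₀, mul_pow, ← pow_mul, ← pow_mul, mul_comm i p, mul_assoc]
  · rw [auxKernel_insert, Finset.card_insert_of_notMem hvT, pow_succ,
      ← Subgroup.relIndex_mul_relIndex _ _ _ inf_le_left (auxKernel_le p S T), hT.index, mul_comm]
    congr 1
    refine relIndex_inf_of_generates hp.out _ _ c₀ hc₀ hc₀v (pow_mem_localPow p v c₀) ?_
    intro y hy
    have hy1 : ordW v.2 (Kv.unitsEmb v.2 y) = 1 := mem_SUnits_iff_localOrd.1 hy.1 v hv
    obtain ⟨i, z, hiz⟩ := exists_eq_pow_mul_of_notMem_localPow hζ hpS hv hc₀.1 hc₀v _ hy1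
    refine ⟨i, (c₀ ^ i)⁻¹ * y, ?_, by rw [mul_inv_cancel_left]⟩
    refine ⟨z, ?_⟩
    rw [map_mul, map_inv, map_pow, hiz, inv_mul_cancel_left]
    rfl

end Data

section Construction

variable {p : ℕ} [hp : Fact p.Prime] {K L : Type} [Field K] [NumberField K] [Field L]
  [NumberField L] [Algebra K L] {G : Type} [Group G] [Finite G] [MulSemiringAction G L]
  [IsGaloisGroup G K L] (hG : Nat.card G = p) {ζ : K} (hζ : IsPrimitiveRoot ζ p) {a : Kˣ} {α : Lˣ}
  (hα : α ^ p = Units.map (algebraMap K L : K →* L) a)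
  (hfaith : ∀ g : G, g • (α : L) = α → g = 1)

include hG hζ hα hfaith in
omit [NumberField K] [NumberField L] [Finite G] in
/-- `a` is not a `p`-th power in `K` -/
lemma kummer_not_pow : ∀ b : Kˣ, b ^ p ≠ a := by
  haveI : NeZero p := ⟨hp.out.ne_zero⟩
  intro b hb
  have hα' : (α : L) ^ p = algebraMap K L (a : K) := kummer_coe_pow hα
  have hb' : (algebraMap K L (b : K)) ^ p = algebraMap K L (a : K) := by
    rw [← map_pow, ← Units.val_pow_eq_pow_val, hb]
  have hb0 : algebraMap K L (b : K) ≠ 0 := (map_ne_zero _).2 b.ne_zero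
  have hρp : ((α : L) / algebraMap K L (b : K)) ^ p = 1 := by
    rw [div_pow, hα', hb', div_self]
    rw [← hb']
    exact pow_ne_zero _ hb0
  have hζL : IsPrimitiveRoot (algebraMap K L ζ) p := hζ.map_of_injective (algebraMap K L).injective
  obtain ⟨j, -, hj⟩ := hζL.eq_pow_of_pow_eq_one hρp
  have hαK : (α : L) = algebraMap K L (ζ ^ j * (b : K)) := by
    rw [map_mul, map_pow, hj, div_mul_cancel₀ _ hb0]
  have hone : ∀ g : G, g = 1 := by
    intro g
    apply hfaith
    rw [hαK, smul_algebraMap_of_isGaloisGroup]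
  have hcard : Nat.card G = 1 := by
    rw [Nat.card_eq_one_iff_unique]
    exact ⟨⟨fun x y => by rw [hone x, hone y]⟩, ⟨1⟩⟩
  rw [hG] at hcard
  exact hp.out.one_lt.ne' hcard

include hG hζ hα hfaith in
/-- **The auxiliary set of places.** -/
theorem exists_aux_places (hFI : FirstInequality p) {S : Finset Nat.Primes}
    (hpS : (⟨p, hp.out⟩ : Nat.Primes) ∈ S) (ha : a ∈ SUnits S K)
    (hfin : ((SUnits S K).map (powMonoidHom p)).relIndex (SUnits S K) ≠ 0) :
    ∃ T : Finset (GPlace K), (∀ v ∈ T, v.1 ∉ S) ∧ (∀ v ∈ T, a ∈ localPow p v) ∧ AuxSurj p S T ∧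
      ((SUnits S K).map (powMonoidHom p)).relIndex (SUnits S K) = p ^ (T.card + 1) := by
  classical
  set N := ((SUnits S K).map (powMonoidHom p)).relIndex (SUnits S K) with hN
  have hchain : ∀ T : Finset (GPlace K),
      ((SUnits S K).map (powMonoidHom p)).relIndex (auxKernel p S T) *
        (auxKernel p S T).relIndex (SUnits S K) = N := fun T =>
    Subgroup.relIndex_mul_relIndex _ _ _ (map_pow_le_auxKernel p S T) (auxKernel_le p S T)
  have hbound : ∀ T : Finset (GPlace K), AuxData p S a T → T.card < N := by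
    intro T hT
    have h1 : p ^ T.card ∣ N := ⟨_, by rw [← hchain T, hT.index, mul_comm]⟩
    exact lt_of_lt_of_le (Nat.lt_pow_self hp.out.one_lt)
      (Nat.le_of_dvd (Nat.pos_of_ne_zero hfin) h1)
  have hmax : ∀ (d : ℕ) (T : Finset (GPlace K)), AuxData p S a T → N ≤ T.card + d →
      ∃ T' : Finset (GPlace K), AuxData p S a T' ∧
        ∀ c ∈ auxKernel p S T', ∃ (i : ℕ) (k : Kˣ), c = a ^ i * k ^ p := by
    intro d
    induction d with
    | zero =>
      intro T hT hle
      exact absurd (hbound T hT) (by omega)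
    | succ d ih =>
      intro T hT hle
      by_cases hdone : ∀ c ∈ auxKernel p S T, ∃ (i : ℕ) (k : Kˣ), c = a ^ i * k ^ p
      · exact ⟨T, hT, hdone⟩
      · push Not at hdone
        obtain ⟨c₀, hc₀, hc₀'⟩ := hdone
        obtain ⟨v, hv1, hv2, hv3⟩ :=
          exists_split_place_not_pow hG hζ hα hfaith hFI hpS ha hc₀.1 hc₀'
        obtain ⟨hvT, hT'⟩ := hT.insert hζ hpS hv1 hv2 hc₀ hv3
        apply ih (insert v T) hT'
        rw [Finset.card_insert_of_notMem hvT]
        omega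
  obtain ⟨T, hT, hTmax⟩ := hmax N ∅ auxData_empty (by simp)
  refine ⟨T, hT.out, hT.split, hT.surj, ?_⟩
  have hp1 : ((SUnits S K).map (powMonoidHom p)).relIndex (auxKernel p S T) = p := by
    have hinf : auxKernel p S T ⊓ (SUnits S K).map (powMonoidHom p)
        = (SUnits S K).map (powMonoidHom p) := inf_eq_right.2 (map_pow_le_auxKernel p S T)
    rw [← hinf]
    refine relIndex_inf_of_generates hp.out _ _ a ⟨ha, hT.split⟩ ?_ ⟨a, ha, rfl⟩ ?_
    · rintro ⟨b, -, hb⟩
      exact kummer_not_pow hG hζ hα hfaith b hb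
    · intro y hy
      obtain ⟨i, k, hik⟩ := hTmax y hy
      refine ⟨i, k ^ p, ⟨k, ?_, rfl⟩, hik⟩
      apply mem_SUnits_of_pow_mem_SUnits hp.out.ne_zero
      have : k ^ p = (a ^ i)⁻¹ * y := by rw [hik, inv_mul_cancel_left]
      rw [this]
      exact mul_mem (inv_mem (pow_mem ha i)) hy.1
  rw [← hchain T, hp1, hT.index, pow_succ, mul_comm]

end Construction

end

end Fermat.Agent.CFT.Global
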