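/-
P4 / Layer C3 (second inequality): the counting argument, in the case `μ_p ⊆ K`.

For a cyclic extension `L / K` of number fields of odd prime degree `p` with `μ_p ⊆ K`:
`[J_K : Kˣ · N J_L] ∣ p` (`second_inequality_of_isPrimitiveRoot`), assuming the first
inequality (in the weak form `FirstInequality p`).
-/
import Fermat.Agent.Lib.CFT.Global.SecondIneq.AuxSet
import Fermat.Agent.Lib.CFT.Global.SecondIneq.KummerExt
import Fermat.Agent.Lib.CFT.Global.SecondIneq.LocalIndex
import Fermat.Agent.Lib.CFT.Global.SecondIneq.SUnitsIndex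

set_option autoImplicit false
set_option linter.style.haveILetI false
set_option linter.unusedSectionVars false

open scoped TensorProduct

namespace Fermat.Agent.CFT.Global

open Fermat.Agent.CFT.Local

noncomputable section

section Abstract

open Subgroup

variable {J M : Type*} [CommGroup J] [CommGroup M]

/-- `[J : P · D(B)] · [B : D⁻¹(P) ∩ B] = [J : P]` -/
theorem index_sup_map_mul_relIndex (P : Subgroup J) (D : M →* J) (B B' : Subgroup M)
    (h : P.comap D ⊓ B = B') : (P ⊔ B.map D).index * B'.relIndex B = P.index := by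
  have h1 : B'.relIndex B = P.relIndex (P ⊔ B.map D) := by
    rw [relIndex_sup_left, ← relIndex_comap, ← h, inf_relIndex_right]
  rw [h1, mul_comm]
  exact relIndex_mul_index le_sup_left

/-- the index of the preimage of `H` under a map whose range generates everything with `H` -/
theorem index_comap_of_sup_range_eq_top {J' : Type*} [CommGroup J'] (H : Subgroup J)
    (f : J' →* J) (h : H ⊔ f.range = ⊤) : (H.comap f).index = H.index := by
  rw [index_comap, ← relIndex_sup_left (K := H) (H := f.range), h, relIndex_top_right]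

end Abstract

section Main

variable {p : ℕ} [hp : Fact p.Prime] {K L : Type} [Field K] [NumberField K] [Field L]
  [NumberField L] [Algebra K L] {G : Type} [Group G] [Finite G] [MulSemiringAction G L]
  [IsGaloisGroup G K L] (hG : Nat.card G = p) {ζ : K} (hζ : IsPrimitiveRoot ζ p) {a : Kˣ} {α : Lˣ}
  (hα : α ^ p = Units.map (algebraMap K L : K →* L) a)
  (hfaith : ∀ g : G, g • (α : L) = α → g = 1)

include hG hζ hα hfaith in
/-- An idele which is trivial at `S`, arbitrary at the (split) places of `T` and a unit elsewhere is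
a norm from `L = K(a^{1/p})`, where `a` is an `S`-unit which is a local `p`-th power at `T`. -/
theorem mem_normIdeles_of_kummer (hp2 : p ≠ 2) {S : Finset Nat.Primes}
    (hpS : (⟨p, hp.out⟩ : Nat.Primes) ∈ S) (ha : a ∈ SUnits S K) (T : Finset (GPlace K))
    (hsplit : ∀ v ∈ T, a ∈ localPow p v) (y : FinIdele K)
    (hyS : ∀ q ∈ S, FinIdele.comp q y = 1)
    (hy : ∀ (q : Nat.Primes) (w : Place (q : ℕ) K), q ∉ S → (⟨q, w⟩ : GPlace K) ∉ T →
      ordW w (SL.unitsProj w (FinIdele.comp q y)) = 1) :
    y ∈ normIdeles K L G := by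
  classical
  have hunit : ∀ (q : Nat.Primes) (w : Place (q : ℕ) K), q ∉ S → (⟨q, w⟩ : GPlace K) ∉ T →
      SL.projOn {w} (FinIdele.comp q y) ∈ SL.normUnitGroup K L G (q : ℕ) := by
    intro q w hq hw
    have hqp : (q : ℕ) ≠ p := by
      intro h
      apply hq
      have : q = ⟨p, hp.out⟩ := Subtype.ext h
      rw [this]
      exact hpS
    have h1 : SL.projOn {w} (FinIdele.comp q y) =
        SL.projOn {w} (SL.unitsSingle w (SL.unitsProj w (FinIdele.comp q y))) := by
      rw [SL.projOn_unitsSingle_of_mem (Finset.mem_singleton_self w), SL.projOn_singleton]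
    rw [h1]
    exact SL.projOn_singleton_mem_normUnitGroup_of_kummer hG hζ hα hp2 hfaith w hqp
      ((mem_SUnits_iff_localOrd.1 ha) ⟨q, w⟩ hq)
      ((SL.unitsSingle_mem_unitGroup_iff w _).2 (hy q w hq hw))
  apply mem_normIdeles_of_forall
  · intro q
    by_cases hq : q ∈ S
    · rw [hyS q hq]
      exact one_mem _
    · apply SL.mem_of_forall_projOn_singleton
      intro w
      by_cases hw : (⟨q, w⟩ : GPlace K) ∈ T
      · obtain ⟨z, hz⟩ := mem_localPow_iff.1 (hsplit _ hw)
        exact SL.projOn_singleton_mem_normGroup_of_free (G := G) (L := L) w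
          (Place.free_of_kummer (G := G) hζ hα hfaith w z hz) _
      · exact SL.normUnitGroup_le_normGroup _ (hunit q w hq hw)
  · refine ((T.image Sigma.fst).finite_toSet).subset ?_
    intro q hq
    by_contra hqT
    apply hq
    by_cases hqS : q ∈ S
    · rw [hyS q hqS]
      exact one_mem _
    · apply SL.mem_of_forall_projOn_singleton
      intro w
      refine hunit q w hqS (fun hw => hqT ?_)
      exact Finset.mem_coe.2 (Finset.mem_image.2 ⟨⟨q, w⟩, hw, rfl⟩)

include hG hζ hα hfaith in
/-- the units outside `S` are norms -/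
theorem unitsOutside_le_normIdeles (hp2 : p ≠ 2) {S : Finset Nat.Primes}
    (hpS : (⟨p, hp.out⟩ : Nat.Primes) ∈ S) (ha : a ∈ SUnits S K) :
    unitsOutside S K ≤ normIdeles K L G := by
  intro u hu
  refine mem_normIdeles_of_kummer hG hζ hα hfaith hp2 hpS ha ∅ (fun v hv => by simp at hv) u
    hu.1 ?_
  intro q w hq _
  exact (SL.mem_unitGroup_iff_forall_unitsProj _).1 (hu.2 q hq) w

include hG hζ hα hfaith in
/-- the `(S ∪ T)`-units, embedded diagonally into the `S`-ideles, lie in `Kˣ · N J_L` -/
theorem toFinIdele_diag_mem_normSubgroup (hp2 : p ≠ 2) {S : Finset Nat.Primes}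
    (hpS : (⟨p, hp.out⟩ : Nat.Primes) ∈ S) (ha : a ∈ SUnits S K) (T : Finset (GPlace K))
    (hsplit : ∀ v ∈ T, a ∈ localPow p v) {c : Kˣ} (hc : c ∈ STUnits K S T) :
    JS.toFinIdele S K (JS.diag S K c) ∈ normSubgroup K L G := by
  rw [mem_normSubgroup_iff]
  refine ⟨c, (FinIdele.princ K c)⁻¹ * JS.toFinIdele S K (JS.diag S K c), ?_,
    mul_inv_cancel_left _ _⟩
  have hcomp : ∀ q : Nat.Primes, FinIdele.comp q (FinIdele.princ K c) = SL.unitsIncl (q : ℕ) K c :=
    fun q => rfl
  refine mem_normIdeles_of_kummer hG hζ hα hfaith hp2 hpS ha T hsplit _ ?_ ?_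
  · intro q hq
    rw [map_mul, map_inv, hcomp, JS.comp_toFinIdele_of_mem _ hq, JS.comp_diag]
    exact inv_mul_cancel _
  · intro q w hq hw
    rw [map_mul, map_inv, hcomp, JS.comp_toFinIdele_of_notMem _ hq, mul_one, map_inv,
      SL.unitsProj_unitsIncl, map_inv, inv_eq_one]
    exact hc ⟨q, w⟩ hq hw

include hG in
/-- `p`-th powers of `S`-ideles are norms -/
theorem toFinIdele_pow_mem_normIdeles {S : Finset Nat.Primes} (z : JS S K) :
    JS.toFinIdele S K (z ^ p) ∈ normIdeles K L G := by
  apply mem_normIdeles_of_forall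
  · intro q
    by_cases hq : q ∈ S
    · rw [map_pow, map_pow, ← hG]
      exact SL.pow_card_mem_normGroup _
    · rw [JS.comp_toFinIdele_of_notMem _ hq]
      exact one_mem _
  · refine (S.finite_toSet).subset ?_
    intro q hq
    by_contra hqS
    apply hq
    rw [JS.comp_toFinIdele_of_notMem _ hqS]
    exact one_mem _

include hG hζ hα hfaith in
/-- `J_K = (Kˣ · N J_L) · J_{K,S}` for a large set `S` -/
theorem normSubgroup_sup_range_toFinIdele (hp2 : p ≠ 2) {S : Finset Nat.Primes}
    (hS : IsLargeSet S K) (hpS : (⟨p, hp.out⟩ : Nat.Primes) ∈ S) (ha : a ∈ SUnits S K) :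
    normSubgroup K L G ⊔ (JS.toFinIdele S K).range = ⊤ := by
  rw [eq_top_iff]
  intro y _
  obtain ⟨b, j, u, hu, hy⟩ := hS.exists_decomp y
  rw [hy, mul_right_comm]
  refine Subgroup.mul_mem_sup (mul_mem (princ_mem_normSubgroup b) ?_) ⟨j, rfl⟩
  exact normIdeles_le_normSubgroup (unitsOutside_le_normIdeles hG hζ hα hfaith hp2 hpS ha hu)

include hG hζ hα hfaith in
/-- **The second inequality for the Kummer extension `L = K(a^{1/p})`**, with a large set `S`
containing `p` such that `a` is an `S`-unit. -/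
theorem index_normSubgroup_dvd_of_kummer (hp2 : p ≠ 2) (hFI : FirstInequality p)
    {S : Finset Nat.Primes} (hS : IsLargeSet S K) (hpS : (⟨p, hp.out⟩ : Nat.Primes) ∈ S)
    (ha : a ∈ SUnits S K) : (normSubgroup K L G).index ∣ p := by
  classical
  have hI2 : (((SUnits S K).map (powMonoidHom p)).relIndex (SUnits S K)) ^ 2 =
      p ^ (Module.finrank ℚ K + 2 * Nat.card (PlacesOver S K)) := by
    rw [relIndex_map_pow_eq_index_range]
    exact SUnits.index_range_pow_sq S K p hp2 ζ hζ
  have hI0 : ((SUnits S K).map (powMonoidHom p)).relIndex (SUnits S K) ≠ 0 := by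
    intro h
    rw [h, zero_pow two_ne_zero] at hI2
    exact (pow_ne_zero _ hp.out.ne_zero) hI2.symm
  obtain ⟨T, hT, hsplit, hsurj, hIT⟩ := exists_aux_places hG hζ hα hfaith hFI hpS ha hI0
  set P : Subgroup (JS S K) := (powMonoidHom p : JS S K →* JS S K).range with hP
  have hPidx : P.index = (((SUnits S K).map (powMonoidHom p)).relIndex (SUnits S K)) ^ 2 := by
    rw [hI2]
    exact JS.index_range_pow S K p hpS ζ hζ
  have hinf : P.comap (JS.diag S K) ⊓ STUnits K S T = (STUnits K S T).map (powMonoidHom p) := by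
    ext x
    rw [Subgroup.mem_inf, Subgroup.mem_comap]
    constructor
    · rintro ⟨⟨z, hz⟩, hxB⟩
      obtain ⟨y, hy⟩ := exists_pow_eq_of_mem_STUnits hp2 hFI hζ hS hpS T hT hsurj x hxB ⟨z, hz⟩
      refine ⟨y, ?_, hy⟩
      intro v hvS hvT
      apply eq_one_of_pow_eq_one_multiplicative_int hp.out.ne_zero
      rw [← map_pow, hy]
      exact hxB v hvS hvT
    · rintro ⟨y, hy, rfl⟩
      exact ⟨⟨JS.diag S K y, (map_pow _ _ _).symm⟩, (STUnits K S T).pow_mem hy p⟩
  have hcount := index_sup_map_mul_relIndex P (JS.diag S K) (STUnits K S T) _ hinf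
  rw [STUnits.relIndex_pow hS hp.out.ne_zero T hT, hPidx, hIT] at hcount
  have hN0 : (P ⊔ (STUnits K S T).map (JS.diag S K)).index = p := by
    have hpos : 0 < p ^ T.card * p ^ (T.card + 1) :=
      Nat.mul_pos (pow_pos hp.out.pos _) (pow_pos hp.out.pos _)
    apply Nat.eq_of_mul_eq_mul_right hpos
    rw [hcount]
    ring
  have hle : P ⊔ (STUnits K S T).map (JS.diag S K) ≤
      (normSubgroup K L G).comap (JS.toFinIdele S K) := by
    rw [sup_le_iff]
    constructor
    · rintro _ ⟨z, rfl⟩
      exact normIdeles_le_normSubgroup (toFinIdele_pow_mem_normIdeles hG z)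
    · rintro _ ⟨c, hc, rfl⟩
      exact toFinIdele_diag_mem_normSubgroup hG hζ hα hfaith hp2 hpS ha T hsplit hc
  rw [← index_comap_of_sup_range_eq_top _ _
    (normSubgroup_sup_range_toFinIdele hG hζ hα hfaith hp2 hS hpS ha), ← hN0]
  exact Subgroup.index_dvd_of_le hle

end Main

section Final

/-- **The second inequality** for cyclic extensions `L / K` of odd prime degree `p` of number
fields with `μ_p ⊆ K`: `[J_K : Kˣ · N_{L/K} J_L]` divides `p`. -/
theorem second_inequality_of_isPrimitiveRoot {p : ℕ} [hp : Fact p.Prime] (hp2 : p ≠ 2)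
    (hFI : FirstInequality p) (K L : Type) [Field K] [NumberField K] [Field L] [NumberField L]
    [Algebra K L] (G : Type) [Group G] [Finite G] [MulSemiringAction G L] [IsGaloisGroup G K L]
    (hG : Nat.card G = p) (ζ : K) (hζ : IsPrimitiveRoot ζ p) :
    (normSubgroup K L G).index ∣ p := by
  obtain ⟨a, α, hα, hfaith⟩ := exists_kummer_generator K L G p hG ζ hζ
  obtain ⟨S, hS₀, hS, ha⟩ := exists_isLargeSet K {(⟨p, hp.out⟩ : Nat.Primes)} a
  exact index_normSubgroup_dvd_of_kummer hG hζ hα hfaith hp2 hFI hS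
    (hS₀ (Finset.mem_singleton_self _)) ha

end Final

end

end Fermat.Agent.CFT.Global
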