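import Fermat.Agent.Lib.CFT.Global.SecondIneq.Defs

/-!
# P4 / Layer C3 (second inequality), leaf X2: removal of the roots of unity (`G × Δ` trick)

* `index_normSubgroup_dvd_of_primitiveRoot` : if `[J_K : Kˣ N J_L] ∣ p` for all cyclic extensions
  `L / K` of degree `p` of number fields with `μ_p ⊆ K`, then the same holds for all cyclic
  extensions of degree `p` of number fields.

Proof.  `L' = L(ζ_p)` is Galois over `K` with group `Γ`, the restriction `r : Γ → G` is onto with
kernel `Gal(L'/L)` of order `d ∣ p - 1`; an element of order `p` of `Γ` generates a subgroup `H`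
mapping bijectively onto `G`, whose fixed field `K'` contains `ζ_p`.  All ideles are computed inside
`J_{L'}`:
* `RootsOfUnity.map_mem_normSubgroup` : `Kˣ N J_L` maps into `K'ˣ N J_{L'}`;
* `RootsOfUnity.pow_card_ker_mem_normSubgroup` : if `y ∈ J_K` lands in `K'ˣ N J_{L'}` then
  `y ^ d ∈ Kˣ N J_L` (apply the norm of `Gal(L'/L)`, which commutes with the norm of `H`);
* `y ^ p ∈ N J_L` always; hence `Kˣ N J_L` is the preimage of `K'ˣ N J_{L'}`
  (`RootsOfUnity.index_normSubgroup_dvd_of_tower`, abstract form;
  `RootsOfUnity.index_normSubgroup_dvd_of_galois_tower`, for any Galois `L'/K` containing `L` and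
  `μ_p` with `[L' : L]` prime to `p`).
-/

set_option autoImplicit false
set_option linter.style.haveILetI false
set_option linter.unusedSectionVars false
set_option linter.unusedVariables false

open scoped TensorProduct
open Polynomial

namespace Fermat.Agent.CFT.Global

namespace RootsOfUnity

noncomputable section

section Princ

variable {K : Type} [Field K] [NumberField K]

/-- the principal ideles embed `Kˣ` -/
lemma princ_injective : Function.Injective (FinIdele.princ K) := by
  intro a b h
  have h2 : Nat.Prime 2 := Nat.prime_two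
  have h1 := congrArg (FinIdele.comp (⟨2, h2⟩ : Nat.Primes)) h
  haveI : Fact (Nat.Prime 2) := ⟨h2⟩
  have h3 : SL.unitsIncl 2 K a = SL.unitsIncl 2 K b := h1
  apply Units.ext
  exact (SL.incl 2 K).injective (congrArg Units.val h3)

end Princ

section Transfer

attribute [-instance] Subgroup.instMulDistribMulActionSubtypeMem

variable {K L K' L' : Type} [Field K] [NumberField K] [Field L] [NumberField L]
  [Field K'] [NumberField K'] [Field L'] [NumberField L']
  [Algebra K L] [Algebra K K'] [Algebra L L'] [Algebra K' L'] [Algebra K L']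
  [IsScalarTower K L L'] [IsScalarTower K K' L']
  {G Γ : Type} [Group G] [Finite G] [MulSemiringAction G L] [IsGaloisGroup G K L]
  [Group Γ] [Finite Γ] [MulSemiringAction Γ L'] [IsGaloisGroup Γ K L']
  (H : Subgroup Γ) [IsGaloisGroup H K' L']
  (r : Γ →* G) (hr : ∀ (γ : Γ) (l : L), algebraMap L L' (r γ • l) = γ • algebraMap L L' l)

lemma subgroup_smul_eq (N : Subgroup Γ) (h : N) (X : FinIdele L') : h • X = (h : Γ) • X := rfl

include hr in
lemma smul_map_eq (γ : Γ) (x : FinIdele L) :
    γ • FinIdele.map (algebraMap L L') x = FinIdele.map (algebraMap L L') (r γ • x) := by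
  have h : (MulSemiringAction.toRingHom Γ L' γ).comp (algebraMap L L') =
      (algebraMap L L').comp (MulSemiringAction.toRingHom G L (r γ)) := by
    ext l
    exact (hr γ l).symm
  rw [FinIdele.smul_def, FinIdele.smul_def, ← FinIdele.map_comp, ← FinIdele.map_comp, h]

include hr in
/-- the norm from `L` to `K` becomes the `H`-norm in `L'` if `H` maps bijectively onto `G` -/
lemma map_normProd_eq (hbij : Function.Bijective (fun h : H => r (h : Γ))) (x : FinIdele L) :
    FinIdele.map (algebraMap L L') (normProd G x) =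
      normProd H (FinIdele.map (algebraMap L L') x) := by
  classical
  letI := Fintype.ofFinite G
  letI := Fintype.ofFinite H
  rw [normProd_apply, normProd_apply, finprod_eq_prod_of_fintype, finprod_eq_prod_of_fintype,
    map_prod]
  symm
  apply Fintype.prod_bijective _ hbij
  intro h
  exact smul_map_eq r hr (h : Γ) x

/-- `y ^ |G|` is a norm -/
lemma pow_card_mem_normIdeles (y : FinIdele K) : y ^ Nat.card G ∈ normIdeles K L G := by
  refine ⟨FinIdele.map (algebraMap K L) y, ?_⟩
  rw [normProd_of_forall_smul_eq G (fun g => FinIdele.smul_map_algebraMap g y), map_pow]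

include hr in
/-- `Kˣ · N J_L` maps into `K'ˣ · N J_L'` -/
lemma map_mem_normSubgroup (hbij : Function.Bijective (fun h : H => r (h : Γ)))
    {y : FinIdele K} (hy : y ∈ normSubgroup K L G) :
    FinIdele.map (algebraMap K K') y ∈ normSubgroup K' L' H := by
  rw [mem_normSubgroup_iff] at hy ⊢
  obtain ⟨a, z, ⟨x, hx⟩, rfl⟩ := hy
  refine ⟨Units.map (algebraMap K K' : K →* K') a, FinIdele.map (algebraMap K K') z,
    ⟨FinIdele.map (algebraMap L L') x, ?_⟩, ?_⟩
  · rw [← map_normProd_eq H r hr hbij, hx, ← FinIdele.map_comp, ← FinIdele.map_comp,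
      ← IsScalarTower.algebraMap_eq, ← IsScalarTower.algebraMap_eq]
  · rw [map_mul, FinIdele.map_princ]

end Transfer

section NormalNorm

attribute [-instance] Subgroup.instMulDistribMulActionSubtypeMem

variable {L' : Type} [Field L'] [NumberField L'] {Γ : Type} [Group Γ] [Finite Γ]
  [MulSemiringAction Γ L']

/-- the norm with respect to a normal subgroup commutes with the action of the whole group -/
lemma normProd_subgroup_smul (N : Subgroup Γ) [N.Normal] (γ : Γ) (X : FinIdele L') :
    normProd N (γ • X) = γ • normProd N X := by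
  classical
  letI := Fintype.ofFinite N
  rw [normProd_apply, normProd_apply, finprod_eq_prod_of_fintype, finprod_eq_prod_of_fintype,
    Finset.smul_prod']
  -- reindex by conjugation
  let e : N ≃ N :=
    { toFun := fun ν => ⟨γ * ν * γ⁻¹, ‹N.Normal›.conj_mem ν ν.2 γ⟩
      invFun := fun ν => ⟨γ⁻¹ * ν * γ, by
        have := ‹N.Normal›.conj_mem ν ν.2 γ⁻¹
        simpa using this⟩
      left_inv := fun ν => Subtype.ext (by simp [mul_assoc])
      right_inv := fun ν => Subtype.ext (by simp [mul_assoc]) }
  refine Fintype.prod_equiv e.symm _ _ (fun ν => ?_)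
  change (ν : Γ) • γ • X = γ • ((e.symm ν : N) : Γ) • X
  rw [← mul_smul, ← mul_smul]
  congr 1
  change (ν : Γ) * γ = γ * (γ⁻¹ * ν * γ)
  group

/-- norms with respect to a normal subgroup and an arbitrary subgroup commute -/
lemma normProd_normProd_comm (N H : Subgroup Γ) [N.Normal] (X : FinIdele L') :
    normProd N (normProd H X) = normProd H (normProd N X) := by
  classical
  letI := Fintype.ofFinite H
  rw [normProd_apply (G := H), normProd_apply (G := H), finprod_eq_prod_of_fintype,
    finprod_eq_prod_of_fintype, map_prod]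
  refine Finset.prod_congr rfl (fun h _ => ?_)
  exact normProd_subgroup_smul N (h : Γ) X

end NormalNorm

section Transfer2

attribute [-instance] Subgroup.instMulDistribMulActionSubtypeMem

variable {K L K' L' : Type} [Field K] [NumberField K] [Field L] [NumberField L]
  [Field K'] [NumberField K'] [Field L'] [NumberField L']
  [Algebra K L] [Algebra K K'] [Algebra L L'] [Algebra K' L'] [Algebra K L']
  [IsScalarTower K L L'] [IsScalarTower K K' L']
  {G Γ : Type} [Group G] [Finite G] [MulSemiringAction G L] [IsGaloisGroup G K L]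
  [Group Γ] [Finite Γ] [MulSemiringAction Γ L'] [IsGaloisGroup Γ K L']
  (H : Subgroup Γ) [IsGaloisGroup H K' L']
  (r : Γ →* G) (hr : ∀ (γ : Γ) (l : L), algebraMap L L' (r γ • l) = γ • algebraMap L L' l)
  [IsGaloisGroup r.ker L L']

/-- the norm of a principal idele is principal -/
lemma normProd_princ (N : Subgroup Γ) (c : L'ˣ) :
    ∃ c' : L'ˣ, normProd N (FinIdele.princ L' c) = FinIdele.princ L' c' := by
  classical
  letI := Fintype.ofFinite N
  refine ⟨∏ ν : N, Units.map (MulSemiringAction.toRingHom Γ L' (ν : Γ) : L' →* L') c, ?_⟩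
  rw [normProd_apply, finprod_eq_prod_of_fintype, map_prod]
  refine Finset.prod_congr rfl (fun ν _ => ?_)
  exact FinIdele.smul_princ Γ (ν : Γ) c

include hr in
/-- **Key step of the `G × Δ` trick.**  If the image of `y ∈ J_K` in `J_{K'}` lies in
`K'ˣ · N J_{L'}`, then `y ^ [L' : L]` lies in `Kˣ · N J_L`. -/
lemma pow_card_ker_mem_normSubgroup (hbij : Function.Bijective (fun h : H => r (h : Γ)))
    {y : FinIdele K} (hy : FinIdele.map (algebraMap K K') y ∈ normSubgroup K' L' H) :
    y ^ Nat.card r.ker ∈ normSubgroup K L G := by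
  rw [mem_normSubgroup_iff] at hy
  obtain ⟨a', n', ⟨x', hx'⟩, hy'⟩ := hy
  -- everything in `J_{L'}`
  have hY : FinIdele.map (algebraMap K L') y =
      FinIdele.princ L' (Units.map (algebraMap K' L' : K' →* L') a') * normProd H x' := by
    rw [IsScalarTower.algebraMap_eq K K' L', FinIdele.map_comp, ← hy', map_mul,
      FinIdele.map_princ, hx']
  -- take the norm with respect to `ker r = Gal(L'/L)`
  have h1 : normProd r.ker (FinIdele.map (algebraMap K L') y) =
      (FinIdele.map (algebraMap K L') y) ^ Nat.card r.ker :=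
    normProd_of_forall_smul_eq _ (fun ν => FinIdele.smul_map_algebraMap (ν : Γ) y)
  obtain ⟨c, hc⟩ := normProd_princ r.ker (Units.map (algebraMap K' L' : K' →* L') a')
  -- descend `N_{ker r} x'` to `L`
  obtain ⟨x'', hx''⟩ := FinIdele.exists_map_eq_of_forall_smul_eq (K := L) (G := r.ker)
    (normProd r.ker x') (fun ν => smul_normProd _ ν x')
  -- descend `N_G x''` to `K`
  obtain ⟨z, hz⟩ := FinIdele.exists_map_eq_of_forall_smul_eq (K := K) (G := G)
    (normProd G x'') (fun g => smul_normProd _ g x'')
  have hzN : z ∈ normIdeles K L G := ⟨x'', hz.symm⟩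
  have h2 : (FinIdele.map (algebraMap K L') y) ^ Nat.card r.ker =
      FinIdele.princ L' c * FinIdele.map (algebraMap K L') z := by
    rw [← h1, hY, map_mul, hc, normProd_normProd_comm, ← hx'',
      ← map_normProd_eq H r hr hbij, ← hz, ← FinIdele.map_comp, ← IsScalarTower.algebraMap_eq]
  -- hence `princ c` comes from `J_K`
  have h3 : FinIdele.princ L' c = FinIdele.map (algebraMap K L') (y ^ Nat.card r.ker * z⁻¹) := by
    rw [map_mul, map_pow, h2, map_inv, mul_inv_cancel_right]
  -- so `c` is `Γ`-invariant
  have hcinv : ∀ γ : Γ, γ • (c : L') = c := by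
    intro γ
    have h4 : γ • FinIdele.princ L' c = FinIdele.princ L' c := by
      rw [h3]; exact FinIdele.smul_map_algebraMap γ _
    rw [FinIdele.smul_princ Γ] at h4
    exact congrArg Units.val (princ_injective h4)
  obtain ⟨b, hb⟩ := (IsGaloisGroup.isInvariant (G := Γ) (A := K) (B := L')).isInvariant _ hcinv
  have hb0 : b ≠ 0 := by
    rintro rfl
    rw [map_zero] at hb
    exact c.ne_zero hb.symm
  have h5 : FinIdele.princ L' c = FinIdele.map (algebraMap K L') (FinIdele.princ K (Units.mk0 b hb0)) := by
    rw [FinIdele.map_princ]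
    congr 1
    exact Units.ext hb.symm
  have h6 : y ^ Nat.card r.ker * z⁻¹ = FinIdele.princ K (Units.mk0 b hb0) :=
    FinIdele.map_injective (algebraMap K L') (h3.symm.trans h5)
  rw [mem_normSubgroup_iff]
  exact ⟨Units.mk0 b hb0, z, hzN, by rw [← h6, inv_mul_cancel_right]⟩

end Transfer2

section Transfer3

attribute [-instance] Subgroup.instMulDistribMulActionSubtypeMem

variable {K L K' L' : Type} [Field K] [NumberField K] [Field L] [NumberField L]
  [Field K'] [NumberField K'] [Field L'] [NumberField L']
  [Algebra K L] [Algebra K K'] [Algebra L L'] [Algebra K' L'] [Algebra K L']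
  [IsScalarTower K L L'] [IsScalarTower K K' L']
  {G Γ : Type} [Group G] [Finite G] [MulSemiringAction G L] [IsGaloisGroup G K L]
  [Group Γ] [Finite Γ] [MulSemiringAction Γ L'] [IsGaloisGroup Γ K L']
  (H : Subgroup Γ) [IsGaloisGroup H K' L']
  (r : Γ →* G) (hr : ∀ (γ : Γ) (l : L), algebraMap L L' (r γ • l) = γ • algebraMap L L' l)
  [IsGaloisGroup r.ker L L']

include hr in
/-- **The `G × Δ` trick, abstract form.**  Let `L'/K` be Galois with group `Γ`, `L = (L')^{ker r}`
for a homomorphism `r : Γ → G = Gal(L/K)` compatible with the actions, and `H ≤ Γ` a subgroup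
mapping bijectively onto `G` with fixed field `K'`.  If `|G| = p` is prime to `[L' : L]`, then
`[J_K : Kˣ N J_L]` divides `[J_{K'} : K'ˣ N J_{L'}]`. -/
theorem index_normSubgroup_dvd_of_tower (hbij : Function.Bijective (fun h : H => r (h : Γ)))
    {p : ℕ} (hG : Nat.card G = p) (hcop : Nat.Coprime (Nat.card r.ker) p)
    (hidx : (normSubgroup K' L' H).index ∣ p) : (normSubgroup K L G).index ∣ p := by
  have heq : normSubgroup K L G =
      (normSubgroup K' L' H).comap (FinIdele.map (algebraMap K K')) := by
    apply le_antisymm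
    · intro y hy
      exact map_mem_normSubgroup H r hr hbij hy
    · intro y hy
      have h1 : y ^ Nat.card r.ker ∈ normSubgroup K L G :=
        pow_card_ker_mem_normSubgroup H r hr hbij hy
      have h2 : y ^ p ∈ normSubgroup K L G := by
        rw [← hG]
        exact normIdeles_le_normSubgroup (pow_card_mem_normIdeles y)
      have hc : IsCoprime ((Nat.card r.ker : ℕ) : ℤ) (p : ℤ) := Nat.isCoprime_iff_coprime.2 hcop
      obtain ⟨u, v, huv⟩ := hc
      have h3 : y = (y ^ Nat.card r.ker) ^ u * (y ^ p) ^ v := by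
        rw [← zpow_natCast, ← zpow_natCast, ← zpow_mul, ← zpow_mul, ← zpow_add,
          mul_comm _ u, mul_comm _ v, huv, zpow_one]
      rw [h3]
      exact mul_mem (zpow_mem h1 u) (zpow_mem h2 v)
  rw [heq, Subgroup.index_comap]
  exact (Subgroup.relIndex_dvd_index_of_normal _ _).trans hidx

end Transfer3

section Cyclo

variable (K L : Type) [Field K] [NumberField K] [Field L] [NumberField L] [Algebra K L]
  (p : ℕ) [NeZero p]

/-- `L(ζ_p) / K` is Galois if `L / K` is. -/
lemma isGalois_cyclotomicField [FiniteDimensional K L] [IsGalois K L] :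
    IsGalois K (CyclotomicField p L) := by
  obtain ⟨f, hfsep, hfsplit⟩ := IsGalois.is_separable_splitting_field K L
  have hf0 : f ≠ 0 := hfsep.ne_zero
  have hg0 : (X ^ p - 1 : K[X]) ≠ 0 := X_pow_sub_C_ne_zero (NeZero.pos p) (1 : K)
  haveI : IsSplittingField L (CyclotomicField p L) ((X ^ p - 1 : K[X]).map (algebraMap K L)) := by
    have := IsCyclotomicExtension.isSplittingField_X_pow_sub_one p L (CyclotomicField p L)
    simpa using this
  haveI := IsSplittingField.mul (F := K) (K := L) (CyclotomicField p L) f (X ^ p - 1 : K[X]) hf0 hg0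
  haveI : Normal K (CyclotomicField p L) := Normal.of_isSplittingField (f * (X ^ p - 1))
  exact ⟨⟩

/-- `[L(ζ_p) : L]` divides `p - 1`. -/
lemma finrank_cyclotomicField_dvd (hp : p.Prime) :
    Module.finrank L (CyclotomicField p L) ∣ p - 1 := by
  haveI := IsCyclotomicExtension.isGalois {p} L (CyclotomicField p L)
  have hζ := IsCyclotomicExtension.zeta_spec p L (CyclotomicField p L)
  have h1 := Subgroup.card_dvd_of_injective _ (hζ.autToPow_injective L)
  rw [IsGalois.card_aut_eq_finrank] at h1
  haveI : Fact p.Prime := ⟨hp⟩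
  rwa [Nat.card_eq_fintype_card, ZMod.card_units_eq_totient, Nat.totient_prime hp] at h1

end Cyclo

section Tower

attribute [-instance] Subgroup.instMulDistribMulActionSubtypeMem

variable (p : ℕ) [Fact p.Prime]
  (K L L' : Type) [Field K] [NumberField K] [Field L] [NumberField L] [Field L'] [NumberField L']
  [Algebra K L] [Algebra L L'] [Algebra K L'] [IsScalarTower K L L']
  (G : Type) [Group G] [Finite G] [MulSemiringAction G L] [IsGaloisGroup G K L]
  [IsGalois K L']

/-- the kernel of the restriction `Gal(L'/K) → G` is the group fixing `L` -/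
lemma ker_restrictHom :
    (IsGaloisGroup.restrictHom (L' ≃ₐ[K] L') G K L L').ker =
      fixingSubgroup (L' ≃ₐ[K] L') (Set.range (algebraMap L L')) := by
  ext γ
  rw [MonoidHom.mem_ker, mem_fixingSubgroup_iff]
  constructor
  · rintro h _ ⟨l, rfl⟩
    rw [← IsGaloisGroup.algebraMap_restrictHom_smul (L' ≃ₐ[K] L') G K L L', h, one_smul]
  · intro h
    haveI : FaithfulSMul G L := IsGaloisGroup.faithful K
    apply eq_of_smul_eq_smul (α := L)
    intro l
    rw [one_smul]
    apply (algebraMap L L').injective
    rw [IsGaloisGroup.algebraMap_restrictHom_smul (L' ≃ₐ[K] L') G K L L']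
    exact h _ ⟨l, rfl⟩

instance isGaloisGroup_ker_restrictHom :
    IsGaloisGroup (IsGaloisGroup.restrictHom (L' ≃ₐ[K] L') G K L L').ker L L' := by
  rw [ker_restrictHom]
  exact IsGaloisGroup.of_isScalarTower (L' ≃ₐ[K] L') K L' L

end Tower

section Tower2

attribute [-instance] Subgroup.instMulDistribMulActionSubtypeMem

variable (p : ℕ) [Fact p.Prime]
  (K L L' : Type) [Field K] [NumberField K] [Field L] [NumberField L] [Field L'] [NumberField L']
  [Algebra K L] [Algebra L L'] [Algebra K L'] [IsScalarTower K L L']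
  (G : Type) [Group G] [Finite G] [MulSemiringAction G L] [IsGaloisGroup G K L]
  [IsGalois K L']

/-- a subgroup of order `p` of `Gal(L'/K)` fixes the `p`-th roots of unity -/
lemma smul_eq_of_card_eq {ζ : L'} (hζ : IsPrimitiveRoot ζ p) (H : Subgroup (L' ≃ₐ[K] L'))
    (hH : Nat.card H = p) (h : H) : (h : L' ≃ₐ[K] L') ζ = ζ := by
  have hp : p.Prime := Fact.out
  haveI : NeZero p := ⟨hp.ne_zero⟩
  have h1 : hζ.autToPow K (h : L' ≃ₐ[K] L') = 1 := by
    have h2 : (hζ.autToPow K (h : L' ≃ₐ[K] L')) ^ p = 1 := by
      rw [← map_pow]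
      have : h ^ p = 1 := by rw [← hH]; exact pow_card_eq_one'
      have h3 : (h : L' ≃ₐ[K] L') ^ p = 1 := by
        have := congrArg (Subtype.val) this
        simpa using this
      rw [h3, map_one]
    have h4 : (hζ.autToPow K (h : L' ≃ₐ[K] L')) ^ (p - 1) = 1 := by
      have := pow_card_eq_one' (G := (ZMod p)ˣ) (x := hζ.autToPow K (h : L' ≃ₐ[K] L'))
      rwa [Nat.card_eq_fintype_card, ZMod.card_units_eq_totient, Nat.totient_prime hp] at this
    have h5 : orderOf (hζ.autToPow K (h : L' ≃ₐ[K] L')) ∣ Nat.gcd p (p - 1) :=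
      Nat.dvd_gcd (orderOf_dvd_of_pow_eq_one h2) (orderOf_dvd_of_pow_eq_one h4)
    have h6 : Nat.gcd p (p - 1) = 1 := by
      have := (Nat.coprime_self_sub_right hp.one_le).2 (Nat.coprime_one_right p)
      exact this
    rw [h6, Nat.dvd_one, orderOf_eq_one_iff] at h5
    exact h5
  have h7 := hζ.autToPow_spec K (h : L' ≃ₐ[K] L')
  rw [h1] at h7
  haveI : Fact (1 < p) := ⟨hp.one_lt⟩
  simpa [ZMod.val_one] using h7.symm

end Tower2

section Tower3

attribute [-instance] Subgroup.instMulDistribMulActionSubtypeMem

variable (p : ℕ) [Fact p.Prime]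
  (hμ : ∀ (K L : Type) [Field K] [NumberField K] [Field L] [NumberField L] [Algebra K L]
      (G : Type) [Group G] [Finite G] [MulSemiringAction G L] [IsGaloisGroup G K L] (ζ : K),
      IsPrimitiveRoot ζ p → Nat.card G = p → (normSubgroup K L G).index ∣ p)
  (K L L' : Type) [Field K] [NumberField K] [Field L] [NumberField L] [Field L'] [NumberField L']
  [Algebra K L] [Algebra L L'] [Algebra K L'] [IsScalarTower K L L']
  (G : Type) [Group G] [Finite G] [MulSemiringAction G L] [IsGaloisGroup G K L]
  [IsGalois K L']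

include hμ in
/-- **The `G × Δ` trick** for a Galois extension `L'/K` containing `L` and the `p`-th roots of
unity, with `[L' : L]` prime to `p`. -/
theorem index_normSubgroup_dvd_of_galois_tower (hG : Nat.card G = p)
    (hcop : Nat.Coprime (Module.finrank L L') p) {ζ : L'} (hζ : IsPrimitiveRoot ζ p) :
    (normSubgroup K L G).index ∣ p := by
  have hp : p.Prime := Fact.out
  have hr := IsGaloisGroup.algebraMap_restrictHom_smul (L' ≃ₐ[K] L') G K L L'
  have hrs := IsGaloisGroup.restrictHom_surjective (L' ≃ₐ[K] L') G K L L'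
  have hcard : Nat.card (IsGaloisGroup.restrictHom (L' ≃ₐ[K] L') G K L L').ker =
      Module.finrank L L' := IsGaloisGroup.card_eq_finrank _ L L'
  have hcop' : Nat.Coprime (Nat.card (IsGaloisGroup.restrictHom (L' ≃ₐ[K] L') G K L L').ker) p := by
    rw [hcard]; exact hcop
  -- `p` divides the order of `Gal(L'/K)`
  have hdvd : p ∣ Nat.card (L' ≃ₐ[K] L') := by
    have h1 := Subgroup.card_eq_card_quotient_mul_card_subgroup
      (IsGaloisGroup.restrictHom (L' ≃ₐ[K] L') G K L L').ker
    rw [Nat.card_congr (QuotientGroup.quotientKerEquivOfSurjective _ hrs).toEquiv, hG] at h1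
    exact ⟨_, h1⟩
  obtain ⟨γ₀, hγ₀⟩ := exists_prime_orderOf_dvd_card' p hdvd
  have hH : Nat.card (Subgroup.zpowers γ₀) = p := by rw [Nat.card_zpowers, hγ₀]
  -- the subgroup of order `p` maps bijectively onto `G`
  have hinf : Subgroup.zpowers γ₀ ⊓ (IsGaloisGroup.restrictHom (L' ≃ₐ[K] L') G K L L').ker = ⊥ :=
    (Subgroup.disjoint_of_coprime_natCard (by rw [hH]; exact hcop'.symm)).eq_bot
  have hbij : Function.Bijective (fun h : Subgroup.zpowers γ₀ =>
      IsGaloisGroup.restrictHom (L' ≃ₐ[K] L') G K L L' (h : L' ≃ₐ[K] L')) := by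
    rw [Nat.bijective_iff_injective_and_card]
    refine ⟨?_, hH.trans hG.symm⟩
    intro h h' hhh
    have h2 : ((h : L' ≃ₐ[K] L')⁻¹ * (h' : L' ≃ₐ[K] L')) ∈
        Subgroup.zpowers γ₀ ⊓ (IsGaloisGroup.restrictHom (L' ≃ₐ[K] L') G K L L').ker := by
      refine Subgroup.mem_inf.2 ⟨mul_mem (inv_mem h.2) h'.2, ?_⟩
      rw [MonoidHom.mem_ker, map_mul, map_inv]
      simp only at hhh
      rw [hhh, inv_mul_cancel]
    rw [hinf, Subgroup.mem_bot, inv_mul_eq_one] at h2
    exact Subtype.ext h2
  -- the primitive root lies in the fixed field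
  have hζmem : ζ ∈ (FixedPoints.intermediateField (Subgroup.zpowers γ₀) :
      IntermediateField K L') := by
    intro h
    exact smul_eq_of_card_eq p K L' hζ (Subgroup.zpowers γ₀) hH h
  have hζ' : IsPrimitiveRoot (⟨ζ, hζmem⟩ : (FixedPoints.intermediateField (Subgroup.zpowers γ₀) :
      IntermediateField K L')) p :=
    IsPrimitiveRoot.of_map_of_injective (f := algebraMap
      ↥(FixedPoints.intermediateField (Subgroup.zpowers γ₀) : IntermediateField K L') L') hζ
      (FaithfulSMul.algebraMap_injective _ L')
  have hidx := hμ ↥(FixedPoints.intermediateField (Subgroup.zpowers γ₀) : IntermediateField K L') L'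
    ↥(Subgroup.zpowers γ₀) ⟨ζ, hζmem⟩ hζ' hH
  exact index_normSubgroup_dvd_of_tower (Subgroup.zpowers γ₀) _ hr hbij hG hcop' hidx

end Tower3

end

end RootsOfUnity

open RootsOfUnity in
/-- **C3-X2: removal of the roots of unity from the second inequality (`G × Δ` trick).**  If the
second inequality `[J_K : Kˣ N J_L] ∣ p` holds for all cyclic extensions of degree `p` of number
fields containing the `p`-th roots of unity, it holds for all cyclic extensions of degree `p`. -/
theorem index_normSubgroup_dvd_of_primitiveRoot (p : ℕ) [Fact p.Prime] (hp2 : p ≠ 2)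
    (hμ : ∀ (K L : Type) [Field K] [NumberField K] [Field L] [NumberField L] [Algebra K L]
      (G : Type) [Group G] [Finite G] [MulSemiringAction G L] [IsGaloisGroup G K L] (ζ : K),
      IsPrimitiveRoot ζ p → Nat.card G = p → (normSubgroup K L G).index ∣ p)
    (K L : Type) [Field K] [NumberField K] [Field L] [NumberField L] [Algebra K L]
    (G : Type) [Group G] [Finite G] [MulSemiringAction G L] [IsGaloisGroup G K L]
    (hG : Nat.card G = p) : (normSubgroup K L G).index ∣ p := by
  have hp : p.Prime := Fact.out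
  haveI : NeZero p := ⟨hp.ne_zero⟩
  haveI : IsGalois K L := IsGaloisGroup.isGalois G K L
  haveI : FiniteDimensional K L := IsGaloisGroup.finiteDimensional G K L
  haveI : IsGalois K (CyclotomicField p L) := isGalois_cyclotomicField K L p
  have hcop : Nat.Coprime (Module.finrank L (CyclotomicField p L)) p := by
    have h1 := finrank_cyclotomicField_dvd L p hp
    have h2 : Nat.Coprime (p - 1) p := by
      have := (Nat.coprime_self_sub_right hp.one_le).2 (Nat.coprime_one_right p)
      exact this.symm
    exact Nat.Coprime.coprime_dvd_left h1 h2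
  exact index_normSubgroup_dvd_of_galois_tower p hμ K L (CyclotomicField p L) G hG hcop
    (IsCyclotomicExtension.zeta_spec p L (CyclotomicField p L))

end Fermat.Agent.CFT.Global
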