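/-
P4 / Layer C3: **the second inequality** of global class field theory, for cyclic extensions of
odd prime degree `p` of number fields: `[J_K : Kˣ · N_{L/K} J_L] ∣ p`.

* `second_inequality_of_firstInequality` : from the first inequality (weak form);
* `second_inequality` : unconditional.
-/
import Fermat.Agent.Lib.CFT.Global.SecondIneq.Main
import Fermat.Agent.Lib.CFT.Global.SecondIneq.RootsOfUnity
import Fermat.Agent.Lib.CFT.Global.NormIndex
import Fermat.Agent.Lib.CFT.Global.FinitelyRamified

set_option autoImplicit false

namespace Fermat.Agent.CFT.Global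

/-- **The second inequality** `[J_K : Kˣ · N_{L/K} J_L] ∣ p` for cyclic extensions of odd prime degree
`p` of number fields, given the first inequality. -/
theorem second_inequality_of_firstInequality {p : ℕ} [Fact p.Prime] (hp2 : p ≠ 2)
    (hFI : FirstInequality p) (K L : Type) [Field K] [NumberField K] [Field L] [NumberField L]
    [Algebra K L] (G : Type) [Group G] [Finite G] [MulSemiringAction G L] [IsGaloisGroup G K L]
    (hG : Nat.card G = p) : (normSubgroup K L G).index ∣ p :=
  index_normSubgroup_dvd_of_primitiveRoot p hp2
    (fun K L _ _ _ _ _ G _ _ _ _ ζ hζ hG => second_inequality_of_isPrimitiveRoot hp2 hFI K L G hG ζ hζ)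
    K L G hG

/-- the first inequality `Kˣ · N_{L/K} J_L ≠ J_K` for cyclic extensions of odd prime degree -/
theorem firstInequality_of_odd (p : ℕ) [Fact p.Prime] (hp2 : p ≠ 2) : FirstInequality p :=
  firstInequality p hp2 (fun L _ _ => exists_unramifiedOutside L)

/-- **The second inequality** `[J_K : Kˣ · N_{L/K} J_L] ∣ p` for cyclic extensions of odd prime degree
`p` of number fields. -/
theorem second_inequality {p : ℕ} [Fact p.Prime] (hp2 : p ≠ 2)
    (K L : Type) [Field K] [NumberField K] [Field L] [NumberField L]
    [Algebra K L] (G : Type) [Group G] [Finite G] [MulSemiringAction G L] [IsGaloisGroup G K L]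
    (hG : Nat.card G = p) : (normSubgroup K L G).index ∣ p :=
  second_inequality_of_firstInequality hp2 (firstInequality_of_odd p hp2) K L G hG

end Fermat.Agent.CFT.Global
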