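/-
P4 / Layer C3: the second inequality in the form consumed by C4 (`SecondInequalityStatement p`
of `Global/Layer.lean`), and the resulting unconditional forms of the C4 results.
-/
import Fermat.Agent.Lib.CFT.Global.SecondIneq.Final
import Fermat.Agent.Lib.CFT.Global.LayerCoh

set_option autoImplicit false

namespace Fermat.Agent.CFT.Global

/-- **The second inequality** for all cyclic extensions of number fields of odd prime degree `p`. -/
theorem secondInequalityStatement (p : ℕ) [Fact p.Prime] (hp2 : p ≠ 2) :
    SecondInequalityStatement p :=
  fun K L _ _ _ _ _ G _ _ _ _ hG => second_inequality hp2 K L G hG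

end Fermat.Agent.CFT.Global
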