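/-
P4 / Layer C3 (second inequality): large sets of primes.

`IsLargeSet S K` : the `S`-class group of `K` is trivial, i.e. `J_K = Kˣ · J_{K,S} · U^S`.

* `exists_isLargeSet` : every finite set of primes is contained in a large set (which can be
  chosen such that a given element of `Kˣ` is an `S`-unit);
* `IsLargeSet.exists_decomp` : the decomposition of an idele;
* `IsLargeSet.exists_uniformizer` : for a place `w` outside `S` there is `π ∈ Kˣ` which is a
  uniformizer at `w` and a unit at all other places outside `S`.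
-/
import Fermat.Agent.Lib.CFT.Global.SecondIneq.Components
import Fermat.Agent.Lib.CFT.Global.IdeleClass

set_option autoImplicit false
set_option linter.style.haveILetI false
set_option linter.unusedSectionVars false

open scoped TensorProduct

namespace Fermat.Agent.CFT.Global

open Fermat.Agent.CFT.Local

noncomputable section

variable (S : Finset Nat.Primes) (K : Type) [Field K] [NumberField K]

/-- `S` is large: the `S`-class group is trivial -/
def IsLargeSet : Prop := Function.Surjective (JS.toCS S K)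

variable {S K}

/-- an idele which is a unit outside `S` is an `S`-idele times an element of `unitsOutside S K` -/
theorem FinIdele.exists_eq_toFinIdele_mul (z : FinIdele K)
    (hz : ∀ q : Nat.Primes, q ∉ S → FinIdele.comp q z ∈ SL.unitGroup (q : ℕ) K) :
    ∃ u' ∈ unitsOutside S K, z = JS.toFinIdele S K (FinIdele.partS S K z) * u' := by
  refine ⟨(JS.toFinIdele S K (FinIdele.partS S K z))⁻¹ * z, ?_, by rw [mul_inv_cancel_left]⟩
  rw [mem_unitsOutside_iff]
  constructor
  · intro q hq
    rw [map_mul, map_inv, JS.comp_toFinIdele_of_mem _ hq]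
    exact inv_mul_cancel _
  · intro q hq
    rw [map_mul, map_inv, JS.comp_toFinIdele_of_notMem _ hq, inv_one, one_mul]
    exact hz q hq

/-- the decomposition `J_K = Kˣ · J_{K,S} · U^S` for a large set `S` -/
theorem IsLargeSet.exists_decomp (hS : IsLargeSet S K) (y : FinIdele K) :
    ∃ (a : Kˣ) (j : JS S K), ∃ u ∈ unitsOutside S K,
      y = FinIdele.princ K a * JS.toFinIdele S K j * u := by
  obtain ⟨j, hj⟩ := hS (CS.mk S K y)
  have h : CS.mk S K y = CS.mk S K (JS.toFinIdele S K j) := hj.symm
  rw [CS.mk_eq_mk_iff] at h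
  obtain ⟨a, u, hu, h⟩ := h
  exact ⟨a, j, u, hu, by rw [h, mul_comm (JS.toFinIdele S K j)]⟩

variable (K) in
/-- **Existence of large sets.** -/
theorem exists_isLargeSet (S₀ : Finset Nat.Primes) (a : Kˣ) :
    ∃ S : Finset Nat.Primes, S₀ ⊆ S ∧ IsLargeSet S K ∧ a ∈ SUnits S K := by
  classical
  letI := Fintype.ofFinite (CS ∅ K)
  choose rep hrep using CS.mk_surjective (S := ∅) (K := K)
  let bad : FinIdele K → Finset Nat.Primes := fun x => x.finite_notMem_unitGroup.toFinset
  have hbad : ∀ (x : FinIdele K) (q : Nat.Primes), q ∉ bad x →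
      FinIdele.comp q x ∈ SL.unitGroup (q : ℕ) K := by
    intro x q hq
    by_contra h
    exact hq ((Set.Finite.mem_toFinset _).2 h)
  set S : Finset Nat.Primes :=
    S₀ ∪ (Finset.univ.biUnion fun c : CS ∅ K => bad (rep c)) ∪ bad (FinIdele.princ K a) with hSdef
  refine ⟨S, fun q hq => ?_, ?_, ?_⟩
  · rw [hSdef, Finset.mem_union, Finset.mem_union]
    exact Or.inl (Or.inl hq)
  · intro c
    obtain ⟨y, rfl⟩ := CS.mk_surjective S c
    have h1 : CS.mk ∅ K y = CS.mk ∅ K (rep (CS.mk ∅ K y)) := (hrep _).symm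
    rw [CS.mk_eq_mk_iff] at h1
    obtain ⟨b, u, hu, hy⟩ := h1
    set z : FinIdele K := rep (CS.mk ∅ K y) * u with hz
    have hzu : ∀ q : Nat.Primes, q ∉ S → FinIdele.comp q z ∈ SL.unitGroup (q : ℕ) K := by
      intro q hq
      rw [hz, map_mul]
      refine mul_mem (hbad _ q fun h => hq ?_) (hu.2 q (Finset.notMem_empty q))
      rw [hSdef, Finset.mem_union, Finset.mem_union]
      exact Or.inl (Or.inr (Finset.mem_biUnion.2 ⟨_, Finset.mem_univ _, h⟩))
    obtain ⟨u', hu', hzz⟩ := FinIdele.exists_eq_toFinIdele_mul z hzu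
    refine ⟨FinIdele.partS S K z, ?_⟩
    show CS.mk S K (JS.toFinIdele S K (FinIdele.partS S K z)) = CS.mk S K y
    rw [CS.mk_eq_mk_iff]
    refine ⟨b⁻¹, u'⁻¹, inv_mem hu', ?_⟩
    have hy' : y = z * FinIdele.princ K b := by
      rw [hy, hz]
      exact mul_right_comm _ _ _
    have hP : JS.toFinIdele S K (FinIdele.partS S K z) = z * u'⁻¹ := by
      rw [eq_mul_inv_iff_mul_eq]
      exact hzz.symm
    rw [hP, hy', map_inv, mul_inv_cancel_right]
  · intro q hq
    have : q ∉ bad (FinIdele.princ K a) := fun h => hq (by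
      rw [hSdef, Finset.mem_union]
      exact Or.inr h)
    exact hbad _ q this

/-- **Uniformizers**: for a large set `S` and a place `w` outside `S` there is an element of `Kˣ`
which is a uniformizer at `w` and a unit at all other places outside `S`. -/
theorem IsLargeSet.exists_uniformizer (hS : IsLargeSet S K) (q : Nat.Primes) (hq : q ∉ S)
    (w : Place (q : ℕ) K) :
    ∃ π : Kˣ, ordW w (Kv.unitsEmb w π) = Multiplicative.ofAdd 1 ∧
      (∀ w' : Place (q : ℕ) K, w' ≠ w → ordW w' (Kv.unitsEmb w' π) = 1) ∧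
      ∀ q' : Nat.Primes, q' ∉ S → q' ≠ q → SL.unitsIncl (q' : ℕ) K π ∈ SL.unitGroup (q' : ℕ) K := by
  obtain ⟨ϖ, hϖ⟩ := Local.ord_surjective (Ow w) (Kv w) (Multiplicative.ofAdd 1)
  have hϖ' : ordW w ϖ = Multiplicative.ofAdd 1 := hϖ
  obtain ⟨a, j, u, hu, hy⟩ := hS.exists_decomp (FinIdele.single q (SL.unitsSingle w ϖ))
  have key : ∀ q' : Nat.Primes, q' ∉ S →
      SL.unitsIncl (q' : ℕ) K a = FinIdele.comp q' (FinIdele.single q (SL.unitsSingle w ϖ)) *
        (FinIdele.comp q' u)⁻¹ := by
    intro q' hq'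
    have h1 := congrArg (FinIdele.comp q') hy
    rw [map_mul, map_mul, JS.comp_toFinIdele_of_notMem _ hq', mul_one] at h1
    rw [h1]
    have h2 : FinIdele.comp q' (FinIdele.princ K a) = SL.unitsIncl (q' : ℕ) K a := rfl
    rw [h2, mul_inv_cancel_right]
  refine ⟨a, ?_, ?_, ?_⟩
  · have h1 := key q hq
    rw [FinIdele.comp_single_same] at h1
    have h2 := congrArg (fun t => ordW w (SL.unitsProj w t)) h1
    simp only [SL.unitsProj_unitsIncl, map_mul, map_inv, SL.unitsProj_unitsSingle_self] at h2
    rw [h2, hϖ', ← SL.ordAt_eq_ordW_unitsProj,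
      SL.mem_unitGroup_iff_forall_ordAt.1 (hu.2 q hq) w, inv_one, mul_one]
  · intro w' hw'
    have h1 := key q hq
    rw [FinIdele.comp_single_same] at h1
    have h2 := congrArg (fun t => ordW w' (SL.unitsProj w' t)) h1
    simp only [SL.unitsProj_unitsIncl, map_mul, map_inv, SL.unitsProj_unitsSingle_of_ne hw',
      one_mul] at h2
    rw [h2, ← SL.ordAt_eq_ordW_unitsProj,
      SL.mem_unitGroup_iff_forall_ordAt.1 (hu.2 q hq) w', inv_one]
  · intro q' hq' hne
    rw [key q' hq', FinIdele.comp_single_of_ne hne, one_mul]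
    exact inv_mem (hu.2 q' hq')

end

end Fermat.Agent.CFT.Global
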