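import Fermat.Agent.Lib.CFT.Coh.HerbrandIndex
import Fermat.Agent.Lib.CFT.Global.Limits
import Fermat.Agent.Lib.CFT.Global.GlobalUnits

/-!
# P4 / Layer C3 (second inequality), leaf X3: the index of the `p`-th powers in the `S`-units

* `index_range_nsmul_of_finite` : `[M : pM] = p ^ rank M * |M[p]|` for a finitely generated abelian
  group `M` (torsion submodule + Lang's index lemma `relIndex_eq_map_mul_ker`);
* `two_mul_rank_add_one` : `2 (rank 𝓞_Kˣ + 1) = [K : ℚ]` if `μ_p ⊆ K`, `p` odd (no real places);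
* `SUnits.index_range_pow` : `[K_S : K_S^p] = p ^ (rank 𝓞_Kˣ + 1 + #{places over S})` if `μ_p ⊆ K`;
* `SUnits.index_range_pow_sq` : `[K_S : K_S^p]^2 = p ^ ([K : ℚ] + 2 #{places over S})`.
-/

set_option autoImplicit false
set_option linter.style.haveILetI false

open Module NumberField

namespace Fermat.Agent.CFT.Global

section FiniteIndex

/-- In a finite abelian group the index of the image of multiplication by `n` is the order of its
kernel. -/
lemma index_range_nsmul_eq_card_ker (T : Type*) [AddCommGroup T] [Finite T] (n : ℕ) :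
    (nsmulAddMonoidHom (α := T) n).range.index = Nat.card (nsmulAddMonoidHom (α := T) n).ker := by
  have h1 := AddSubgroup.card_mul_index (nsmulAddMonoidHom (α := T) n).range
  have h2 := AddSubgroup.card_mul_index (nsmulAddMonoidHom (α := T) n).ker
  rw [AddSubgroup.index_ker, ← h1] at h2
  have h3 : Nat.card (nsmulAddMonoidHom (α := T) n).range ≠ 0 := Nat.card_pos.ne'
  rw [mul_comm] at h2
  exact (Nat.eq_of_mul_eq_mul_left (Nat.pos_of_ne_zero h3) h2).symm

variable (M : Type*) [AddCommGroup M]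

/-- **C3-X3 (a).**  For a finitely generated abelian group `M` and a prime `p`:
`[M : pM] = p ^ rank M * |M[p]|`. -/
theorem index_range_nsmul_of_finite [Module.Finite ℤ M] (p : ℕ) (hp : p.Prime) :
    (nsmulAddMonoidHom (α := M) p).range.index =
      p ^ Module.finrank ℤ M * Nat.card (nsmulAddMonoidHom (α := M) p).ker := by
  classical
  set T : Submodule ℤ M := Submodule.torsion ℤ M with hT
  -- the torsion-free quotient
  haveI : Module.Free ℤ (M ⧸ T) := Module.free_of_finite_type_torsion_free'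
  have hrank : Module.finrank ℤ (M ⧸ T) = Module.finrank ℤ M :=
    finrank_quotient_eq_of_le_torsion le_rfl
  have hquot := AddSubgroup.index_range_nsmul (M ⧸ T) p
  rw [hrank] at hquot
  -- Lang's index lemma for the projection
  have hlang := Coh.Herbrand.relIndex_eq_map_mul_ker (T.mkQ : M →ₗ[ℤ] M ⧸ T).toAddMonoidHom
    (le_top : (nsmulAddMonoidHom (α := M) p).range ≤ ⊤)
  rw [AddSubgroup.relIndex_top_right] at hlang
  have hmaptop : (⊤ : AddSubgroup M).map (T.mkQ : M →ₗ[ℤ] M ⧸ T).toAddMonoidHom = ⊤ :=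
    AddSubgroup.map_top_of_surjective _ (Submodule.mkQ_surjective T)
  have hmaprange : (nsmulAddMonoidHom (α := M) p).range.map
      (T.mkQ : M →ₗ[ℤ] M ⧸ T).toAddMonoidHom = (nsmulAddMonoidHom (α := M ⧸ T) p).range := by
    ext y
    constructor
    · rintro ⟨_, ⟨m, rfl⟩, rfl⟩
      exact ⟨T.mkQ m, by simp⟩
    · rintro ⟨y', rfl⟩
      obtain ⟨m, rfl⟩ := Submodule.mkQ_surjective T y'
      exact ⟨p • m, ⟨m, rfl⟩, by simp⟩
  rw [hmaptop, hmaprange, AddSubgroup.relIndex_top_right, hquot, top_inf_eq] at hlang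
  rw [hlang]
  congr 1
  -- the torsion part
  have hmemT : ∀ x : M, x ∈ (T.mkQ : M →ₗ[ℤ] M ⧸ T).toAddMonoidHom.ker ↔ x ∈ T := by
    intro x
    rw [AddMonoidHom.mem_ker]
    exact Submodule.Quotient.mk_eq_zero T
  haveI hfinT : Finite ↥T := by
    haveI : Module.Finite ℤ ↥T := Module.IsNoetherian.finite ℤ ↥T
    exact Module.finite_of_fg_torsion ↥T (Submodule.torsion_isTorsion)
  haveI : Finite ↥(T.mkQ : M →ₗ[ℤ] M ⧸ T).toAddMonoidHom.ker :=
    Finite.of_injective (fun x => (⟨x.1, (hmemT _).1 x.2⟩ : ↥T))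
      (fun x y h => Subtype.ext (congrArg (fun z : ↥T => (z : M)) h))
  rw [AddSubgroup.inf_relIndex_right, AddSubgroup.relIndex]
  have hrange : (nsmulAddMonoidHom (α := M) p).range.addSubgroupOf
      (T.mkQ : M →ₗ[ℤ] M ⧸ T).toAddMonoidHom.ker =
      (nsmulAddMonoidHom (α := ↥(T.mkQ : M →ₗ[ℤ] M ⧸ T).toAddMonoidHom.ker) p).range := by
    ext ⟨x, hx⟩
    rw [AddSubgroup.mem_addSubgroupOf]
    constructor
    · rintro ⟨m, hm⟩
      have hm' : p • m = x := hm
      have hmT : m ∈ (T.mkQ : M →ₗ[ℤ] M ⧸ T).toAddMonoidHom.ker := by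
        rw [hmemT] at hx ⊢
        obtain ⟨a, ha⟩ := hx
        refine ⟨⟨(a : ℤ) * (p : ℤ), mul_mem a.2 (mem_nonZeroDivisors_of_ne_zero
          (by exact_mod_cast hp.ne_zero))⟩, ?_⟩
        change ((a : ℤ) * (p : ℤ)) • m = 0
        rw [mul_smul, natCast_zsmul, hm']
        exact ha
      exact ⟨⟨m, hmT⟩, Subtype.ext hm'⟩
    · rintro ⟨⟨m, hmT⟩, hm⟩
      exact ⟨m, congrArg Subtype.val hm⟩
  rw [hrange, index_range_nsmul_eq_card_ker]
  refine Nat.card_congr ⟨fun x => ⟨x.1.1, ?_⟩, fun x => ⟨⟨x.1, ?_⟩, ?_⟩, ?_, ?_⟩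
  · have := x.2
    rw [AddMonoidHom.mem_ker] at this ⊢
    exact congrArg Subtype.val this
  · rw [hmemT]
    refine ⟨⟨(p : ℤ), mem_nonZeroDivisors_of_ne_zero (by exact_mod_cast hp.ne_zero)⟩, ?_⟩
    change (p : ℤ) • x.1 = 0
    rw [natCast_zsmul]
    exact x.2
  · rw [AddMonoidHom.mem_ker]
    exact Subtype.ext x.2
  · intro x; rfl
  · intro x; rfl

end FiniteIndex

section Rank

/-- **C3-X3 (b).**  A number field containing a primitive `p`-th root of unity, `p` odd, is totally
complex: `2 (rank 𝓞ˣ + 1) = [K : ℚ]`. -/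
theorem two_mul_rank_add_one (K : Type) [Field K] [NumberField K] (p : ℕ) [Fact p.Prime]
    (hp2 : p ≠ 2) (ζ : K) (hζ : IsPrimitiveRoot ζ p) :
    2 * (NumberField.Units.rank K + 1) = Module.finrank ℚ K := by
  have hp : p.Prime := Fact.out
  have h2 : 2 < p := lt_of_le_of_ne hp.two_le (Ne.symm hp2)
  have h0 := NumberField.InfinitePlace.IsPrimitiveRoot.nrRealPlaces_eq_zero_of_two_lt h2 hζ
  have h1 := NumberField.InfinitePlace.card_add_two_mul_card_eq_rank K
  have h3 := NumberField.InfinitePlace.card_eq_nrRealPlaces_add_nrComplexPlaces K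
  have hpos : 0 < Fintype.card (InfinitePlace K) := Fintype.card_pos
  unfold NumberField.Units.rank
  omega

end Rank

section SUnitsIndex

/-- index of the `n`-th powers in a commutative group, additively -/
lemma index_range_powMonoidHom_eq_nsmul (G : Type*) [CommGroup G] (n : ℕ) :
    (powMonoidHom n : G →* G).range.index =
      (nsmulAddMonoidHom (α := Additive G) n).range.index := by
  rw [← Subgroup.index_toAddSubgroup]
  congr 1

/-- the kernel of `x ↦ x ^ p` on the `S`-units is `μ_p(K)` -/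
noncomputable def SUnits.kerPowEquiv (S : Finset Nat.Primes) (K : Type) [Field K] [NumberField K]
    (p : ℕ) (hp : p ≠ 0) :
    ↥(nsmulAddMonoidHom (α := Additive (SUnits S K)) p).ker ≃ ↥(rootsOfUnity p K) where
  toFun x := ⟨((Additive.toMul x.1 : SUnits S K) : Kˣ), by
    have h := x.2
    rw [AddMonoidHom.mem_ker] at h
    rw [mem_rootsOfUnity]
    have h' : (Additive.toMul x.1 : SUnits S K) ^ p = 1 := h
    exact congrArg Subtype.val h'⟩
  invFun y := ⟨Additive.ofMul ⟨y.1, mem_SUnits_of_pow_eq_one hp ((mem_rootsOfUnity _ _).1 y.2)⟩, by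
    rw [AddMonoidHom.mem_ker]
    change Additive.ofMul ((⟨y.1, _⟩ : SUnits S K) ^ p) = 0
    have : (⟨y.1, mem_SUnits_of_pow_eq_one hp ((mem_rootsOfUnity _ _).1 y.2)⟩ : SUnits S K) ^ p
        = 1 := Subtype.ext ((mem_rootsOfUnity _ _).1 y.2)
    rw [this]; rfl⟩
  left_inv x := rfl
  right_inv y := rfl

end SUnitsIndex

section SUnitsIndex2

/-- `[K_S : K_S^p] = p ^ (rank 𝓞ˣ + 1 + #{places over S})` if `μ_p ⊆ K`. -/
theorem SUnits.index_range_pow (S : Finset Nat.Primes) (K : Type) [Field K] [NumberField K]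
    (p : ℕ) [Fact p.Prime] (ζ : K) (hζ : IsPrimitiveRoot ζ p) :
    (powMonoidHom p : SUnits S K →* SUnits S K).range.index =
      p ^ (NumberField.Units.rank K + 1 + Nat.card (PlacesOver S K)) := by
  have hp : p.Prime := Fact.out
  haveI : NeZero p := ⟨hp.ne_zero⟩
  have hcard : Nat.card ↥(rootsOfUnity p K) = p := hζ.card_rootsOfUnity
  rw [index_range_powMonoidHom_eq_nsmul, index_range_nsmul_of_finite _ p hp, SUnits.finrank_eq,
    Nat.card_congr (SUnits.kerPowEquiv S K p hp.ne_zero), hcard]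
  ring

/-- **C3-X3 (c).**  `[K_S : K_S^p]^2 = p ^ ([K : ℚ] + 2 #{places over S})` if `μ_p ⊆ K`, `p` odd. -/
theorem SUnits.index_range_pow_sq (S : Finset Nat.Primes) (K : Type) [Field K] [NumberField K]
    (p : ℕ) [Fact p.Prime] (hp2 : p ≠ 2) (ζ : K) (hζ : IsPrimitiveRoot ζ p) :
    (powMonoidHom p : SUnits S K →* SUnits S K).range.index ^ 2 =
      p ^ (Module.finrank ℚ K + 2 * Nat.card (PlacesOver S K)) := by
  rw [SUnits.index_range_pow S K p ζ hζ, ← pow_mul, ← two_mul_rank_add_one K p hp2 ζ hζ]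
  congr 1
  ring

end SUnitsIndex2

end Fermat.Agent.CFT.Global
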