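/-
P4 / Layer C3 (second inequality): `(S ∪ T)`-units for a finite set `T` of places outside `S`.

* `GPlace K` : the finite places of `K` (pairs of a rational prime and a place above it);
* `localOrd v : Kˣ →* Multiplicative ℤ`, `localPow p v : Subgroup Kˣ` (local `p`-th powers);
* `STUnits S T K` : elements of `Kˣ` which are units outside `S ∪ T`;
* `STUnits.relIndex_pow` : `[K_{S∪T} : K_{S∪T}ᵖ] = p^{#T} · [K_S : K_Sᵖ]` for a large set `S`.
-/
import Fermat.Agent.Lib.CFT.Global.SecondIneq.LargeS
import Fermat.Agent.Lib.CFT.Global.SecondIneq.IndexLemmas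

set_option autoImplicit false
set_option linter.style.haveILetI false
set_option linter.unusedSectionVars false

open scoped TensorProduct

namespace Fermat.Agent.CFT.Global

open Fermat.Agent.CFT.Local

noncomputable section

variable (K : Type) [Field K] [NumberField K]

/-- the finite places of `K` -/
abbrev GPlace : Type := Σ q : Nat.Primes, Place (q : ℕ) K

variable {K}

/-- the normalized valuation at the place `v`, on `Kˣ` -/
def localOrd (v : GPlace K) : Kˣ →* Multiplicative ℤ := (ordW v.2).comp (Kv.unitsEmb v.2)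

lemma localOrd_apply (v : GPlace K) (x : Kˣ) : localOrd v x = ordW v.2 (Kv.unitsEmb v.2 x) := rfl

/-- the elements of `Kˣ` which are `p`-th powers in the completion at `v` -/
def localPow (p : ℕ) (v : GPlace K) : Subgroup Kˣ :=
  ((powMonoidHom p : (Kv v.2)ˣ →* (Kv v.2)ˣ).range).comap (Kv.unitsEmb v.2)

lemma mem_localPow_iff {p : ℕ} {v : GPlace K} {x : Kˣ} :
    x ∈ localPow p v ↔ ∃ z : (Kv v.2)ˣ, z ^ p = Kv.unitsEmb v.2 x := Iff.rfl

lemma pow_mem_localPow (p : ℕ) (v : GPlace K) (x : Kˣ) : x ^ p ∈ localPow p v :=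
  ⟨Kv.unitsEmb v.2 x, (map_pow _ _ _).symm⟩

variable (K) in
/-- the elements of `Kˣ` which are units at all places outside `S ∪ T` -/
def STUnits (S : Finset Nat.Primes) (T : Finset (GPlace K)) : Subgroup Kˣ where
  carrier := {x | ∀ v : GPlace K, v.1 ∉ S → v ∉ T → localOrd v x = 1}
  one_mem' := fun v _ _ => map_one _
  mul_mem' := fun {x y} hx hy v h1 h2 => by rw [map_mul, hx v h1 h2, hy v h1 h2, one_mul]
  inv_mem' := fun {x} hx v h1 h2 => by rw [map_inv, hx v h1 h2, inv_one]

lemma mem_STUnits_iff {S : Finset Nat.Primes} {T : Finset (GPlace K)} {x : Kˣ} :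
    x ∈ STUnits K S T ↔ ∀ v : GPlace K, v.1 ∉ S → v ∉ T → localOrd v x = 1 := Iff.rfl

lemma mem_SUnits_iff_localOrd {S : Finset Nat.Primes} {x : Kˣ} :
    x ∈ SUnits S K ↔ ∀ v : GPlace K, v.1 ∉ S → localOrd v x = 1 := by
  rw [mem_SUnits_iff]
  constructor
  · intro h v hv
    exact (SL.mem_unitGroup_iff_forall_unitsProj _).1 (h v.1 hv) v.2
  · intro h q hq
    exact (SL.mem_unitGroup_iff_forall_unitsProj _).2 fun w => h ⟨q, w⟩ hq

lemma STUnits_empty (S : Finset Nat.Primes) : STUnits K S ∅ = SUnits S K := by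
  ext x
  rw [mem_STUnits_iff, mem_SUnits_iff_localOrd]
  exact forall_congr' fun v => by simp

lemma STUnits_mono (S : Finset Nat.Primes) {T T' : Finset (GPlace K)} (h : T ⊆ T') :
    STUnits K S T ≤ STUnits K S T' :=
  fun _ hx v h1 h2 => hx v h1 (fun h3 => h2 (h h3))

lemma SUnits_le_STUnits (S : Finset Nat.Primes) (T : Finset (GPlace K)) :
    SUnits S K ≤ STUnits K S T := by
  rw [← STUnits_empty]
  exact STUnits_mono S (Finset.empty_subset T)

/-- **The `(S ∪ T)`-units modulo `p`-th powers** for a large set `S`. -/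
theorem STUnits.relIndex_pow {S : Finset Nat.Primes} (hS : IsLargeSet S K) {p : ℕ} (hp : p ≠ 0)
    (T : Finset (GPlace K)) (hT : ∀ v ∈ T, v.1 ∉ S) :
    ((STUnits K S T).map (powMonoidHom p)).relIndex (STUnits K S T) =
      p ^ T.card * ((SUnits S K).map (powMonoidHom p)).relIndex (SUnits S K) := by
  classical
  induction T using Finset.induction_on with
  | empty => rw [STUnits_empty, Finset.card_empty, pow_zero, one_mul]
  | insert v T hvT ih =>
    have hvS : v.1 ∉ S := hT v (Finset.mem_insert_self v T)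
    obtain ⟨π, hπ1, hπ2, hπ3⟩ := hS.exists_uniformizer v.1 hvS v.2
    have ih' := ih (fun v' hv' => hT v' (Finset.mem_insert_of_mem hv'))
    have hgoal : p ^ (insert v T).card *
        ((SUnits S K).map (powMonoidHom p)).relIndex (SUnits S K) =
        p * ((STUnits K S T).map (powMonoidHom p)).relIndex (STUnits K S T) := by
      rw [Finset.card_insert_of_notMem hvT, pow_succ, ih']
      ring
    rw [hgoal]
    refine relIndex_pow_of_split hp (STUnits K S T) (STUnits K S (insert v T)) (localOrd v) π ?_
      hπ1 ?_ (STUnits_mono S (Finset.subset_insert v T))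
    · intro v' hv'S hv'T
      rw [Finset.mem_insert, not_or] at hv'T
      by_cases hq : v'.1 = v.1
      · obtain ⟨q', w'⟩ := v'
        obtain ⟨q, w⟩ := v
        simp only at hq
        subst hq
        apply hπ2
        intro h
        simp only at h
        exact hv'T.1 (by rw [h])
      · exact (SL.mem_unitGroup_iff_forall_unitsProj _).1 (hπ3 v'.1 hv'S hq) v'.2
    · intro x hx
      constructor
      · intro hxT
        exact hxT v hvS hvT
      · intro hox v' hv'S hv'T
        by_cases hv' : v' = v
        · rw [hv', hox]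
        · exact hx v' hv'S (by rw [Finset.mem_insert, not_or]; exact ⟨hv', hv'T⟩)

end

end Fermat.Agent.CFT.Global
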