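/-
P4 / Layer C3 (second inequality): abstract index lemmas for the counting argument.

* `relIndex_inf_of_generates` : if `W/(W ∩ R)` is generated by an element of order `p`, the index of
  `W ∩ R` in `W` is `p`;
* `relIndex_pow_of_split` : `[B' : B'ᵖ] = p · [B : Bᵖ]` if `B' = B × π^ℤ`;
* `relIndex_map_pow_eq_index_range` : `[A : Aᵖ]` as the index of the range of `x ↦ xᵖ` on `A`.
-/
import Fermat.Agent.Lib.CFT.Local.PowerIndex

set_option autoImplicit false
set_option linter.style.haveILetI false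

namespace Fermat.Agent.CFT.Global

open Fermat.Agent.CFT.Local Subgroup

section

variable {M : Type*} [CommGroup M]

/-- if `W/(W ∩ R)` is generated by the class of `c₀`, of order `p`, then `[W : W ∩ R] = p` -/
theorem relIndex_inf_of_generates {p : ℕ} (hp : p.Prime) (W R : Subgroup M) (c₀ : M) (hc₀ : c₀ ∈ W)
    (hc₀R : c₀ ∉ R) (hc₀p : c₀ ^ p ∈ R)
    (hgen : ∀ y ∈ W, ∃ i : ℕ, ∃ r ∈ R, y = c₀ ^ i * r) : (W ⊓ R).relIndex W = p := by
  rw [inf_comm, inf_relIndex_right, relIndex, index]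
  set Q := W ⧸ R.subgroupOf W with hQ
  set g : Q := QuotientGroup.mk ⟨c₀, hc₀⟩ with hg
  have hgp : g ^ p = 1 := by
    rw [hg, ← QuotientGroup.mk_pow, QuotientGroup.eq_one_iff, mem_subgroupOf]
    exact hc₀p
  have hg1 : g ≠ 1 := by
    rw [hg, Ne, QuotientGroup.eq_one_iff, mem_subgroupOf]
    exact hc₀R
  haveI : Fact p.Prime := ⟨hp⟩
  have hord : orderOf g = p := orderOf_eq_prime hgp hg1
  have hall : ∀ x : Q, x ∈ zpowers g := by
    intro x
    obtain ⟨⟨y, hy⟩, rfl⟩ := QuotientGroup.mk_surjective x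
    obtain ⟨i, r, hr, hyr⟩ := hgen y hy
    rw [mem_zpowers_iff]
    refine ⟨i, ?_⟩
    rw [zpow_natCast, hg, ← QuotientGroup.mk_pow, QuotientGroup.eq, mem_subgroupOf]
    have hrW : r ∈ W := by
      have : r = (c₀ ^ i)⁻¹ * y := by rw [hyr, inv_mul_cancel_left]
      rw [this]
      exact W.mul_mem (W.inv_mem (W.pow_mem hc₀ i)) hy
    have : (((⟨c₀, hc₀⟩ : W) ^ i)⁻¹ * ⟨y, hy⟩ : W) = ⟨r, hrW⟩ := by
      apply Subtype.ext
      simp only [coe_mul, InvMemClass.coe_inv, SubmonoidClass.coe_pow]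
      rw [hyr, inv_mul_cancel_left]
    rw [this]
    exact hr
  rw [← hord]
  exact (orderOf_eq_card_of_forall_mem_zpowers hall).symm

/-- `[A : Aᵖ]` as the index of the range of the `p`-th power map of `A` -/
theorem relIndex_map_pow_eq_index_range (A : Subgroup M) (p : ℕ) :
    (A.map (powMonoidHom p)).relIndex A = (powMonoidHom p : A →* A).range.index := by
  rw [relIndex]
  congr 1
  ext ⟨x, hx⟩
  rw [mem_subgroupOf, MonoidHom.mem_range]
  constructor
  · rintro ⟨y, hy, hyx⟩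
    exact ⟨⟨y, hy⟩, Subtype.ext hyx⟩
  · rintro ⟨⟨y, hy⟩, hyx⟩
    exact ⟨y, hy, congrArg Subtype.val hyx⟩

/-- `[B' : B'ᵖ] = p · [B : Bᵖ]` if `B` is the kernel of a surjection `o : B' → ℤ` -/
theorem relIndex_pow_of_split {p : ℕ} (hp : p ≠ 0) (B B' : Subgroup M) (o : M →* Multiplicative ℤ)
    (π : M) (hπ : π ∈ B') (hoπ : o π = Multiplicative.ofAdd 1)
    (hB : ∀ x ∈ B', x ∈ B ↔ o x = 1) (hBB' : B ≤ B') :
    (B'.map (powMonoidHom p)).relIndex B' = p * (B.map (powMonoidHom p)).relIndex B := by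
  have hle : B'.map (powMonoidHom p) ≤ B' := by
    rintro _ ⟨x, hx, rfl⟩
    exact B'.pow_mem hx p
  rw [relIndex_eq_map_mul_ker o hle]
  have h1 : B'.map o = ⊤ := by
    rw [eq_top_iff]
    intro n _
    refine ⟨π ^ (Multiplicative.toAdd n), B'.zpow_mem hπ _, ?_⟩
    rw [map_zpow, hoπ, ← ofAdd_zsmul, smul_eq_mul, mul_one]
    rfl
  have h2 : (B'.map (powMonoidHom p)).map o =
      (powMonoidHom p : Multiplicative ℤ →* Multiplicative ℤ).range := by
    rw [MonoidHom.range_eq_map, ← h1, map_map, map_map]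
    congr 1
    ext x
    simp
  have h3 : B' ⊓ o.ker = B := by
    ext x
    rw [mem_inf, MonoidHom.mem_ker]
    constructor
    · rintro ⟨hx, hox⟩
      exact (hB x hx).2 hox
    · intro hx
      exact ⟨hBB' hx, (hB x (hBB' hx)).1 hx⟩
  have h4 : B'.map (powMonoidHom p) ⊓ o.ker = B.map (powMonoidHom p) := by
    ext x
    rw [mem_inf, MonoidHom.mem_ker]
    constructor
    · rintro ⟨⟨y, hy, rfl⟩, hox⟩
      refine ⟨y, (hB y hy).2 ?_, rfl⟩
      rw [powMonoidHom_apply, map_pow] at hox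
      have h5 : Multiplicative.toAdd (o y ^ p) = 0 := by rw [hox]; rfl
      rw [toAdd_pow, nsmul_eq_mul, mul_eq_zero] at h5
      rcases h5 with h5 | h5
      · exact absurd (by exact_mod_cast h5) hp
      · exact h5
    · rintro ⟨y, hy, rfl⟩
      refine ⟨⟨y, hBB' hy, rfl⟩, ?_⟩
      rw [powMonoidHom_apply, map_pow, (hB y (hBB' hy)).1 hy, one_pow]
  rw [h1, h2, h3, h4, relIndex_top_right, index_range_powMonoidHom_multiplicative_int]

end

end Fermat.Agent.CFT.Global
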