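/-
P4 / Layer C3 (second inequality): the units of `K_w` modulo `p`-th powers at a place `w ∤ p`
(`μ_p ⊆ K`): `[U_w : U_w^p] = p`, hence any unit which is not a `p`-th power generates
`U_w / U_w^p`.
-/
import Fermat.Agent.Lib.CFT.Global.SecondIneq.Components
import Fermat.Agent.Lib.CFT.Local.PowerIndex

set_option autoImplicit false
set_option linter.style.haveILetI false
set_option linter.unusedSectionVars false

open scoped TensorProduct

namespace Fermat.Agent.CFT.Global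

open Fermat.Agent.CFT.Local

noncomputable section

variable {q : ℕ} [Fact q.Prime] {K : Type} [Field K] [NumberField K]
  {p : ℕ} [hp : Fact p.Prime]

/-- a prime `p ≠ q` is a unit in `O_w` for `w ∣ q` -/
lemma Ow.isUnit_natCast (w : Place q K) (hqp : q ≠ p) : IsUnit ((p : ℕ) : Ow w) := by
  have h1 : IsUnit ((p : ℕ) : ℤ_[q]) := by
    rw [PadicInt.isUnit_iff, PadicInt.norm_natCast_eq_one_iff]
    exact (Nat.coprime_primes Fact.out hp.out).2 hqp
  have h2 := h1.map (algebraMap ℤ_[q] (Ow w))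
  rwa [map_natCast] at h2

/-- the image of a root of unity of `K` in `O_w` -/
def Ow.ofRootOfUnity (w : Place q K) (ζ : K) (hζ : ζ ^ p = 1) : Ow w :=
  ⟨Kv.emb w ζ, by
    have h1 : IsIntegral ℤ ζ := ⟨Polynomial.X ^ p - 1, Polynomial.monic_X_pow_sub_C 1 hp.out.ne_zero,
      by simp [hζ]⟩
    exact IsIntegral.tower_top (R := ℤ) (A := ℤ_[q]) (map_isIntegral_int (Kv.emb w) h1)⟩

lemma Ow.isPrimitiveRoot_ofRootOfUnity (w : Place q K) {ζ : K} (hζ : IsPrimitiveRoot ζ p) :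
    IsPrimitiveRoot (Ow.ofRootOfUnity w ζ hζ.pow_eq_one) p := by
  have h1 : IsPrimitiveRoot (Kv.emb w ζ) p := hζ.map_of_injective (Kv.emb w).injective
  have h2 : algebraMap (Ow w) (Kv w) (Ow.ofRootOfUnity w ζ hζ.pow_eq_one) = Kv.emb w ζ := rfl
  rw [← h2] at h1
  exact h1.of_map_of_injective (IsFractionRing.injective (Ow w) (Kv w))

/-- `[O_wˣ : O_wˣᵖ] = p` for `w ∤ p`, `μ_p ⊆ K` -/
theorem Ow.index_range_pow (w : Place q K) (hqp : q ≠ p) {ζ : K} (hζ : IsPrimitiveRoot ζ p) :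
    (powMonoidHom p : (Ow w)ˣ →* (Ow w)ˣ).range.index = p := by
  have hu := Ow.isUnit_natCast (p := p) w hqp
  have hne : ((p : ℕ) : Ow w) ≠ 0 := hu.ne_zero
  rw [index_range_powMonoidHom_units p hne]
  have h1 : Nat.card (Ow w ⧸ Ideal.span {((p : ℕ) : Ow w)}) = 1 := by
    rw [Ideal.span_singleton_eq_top.2 hu]
    haveI : Subsingleton (Ow w ⧸ (⊤ : Ideal (Ow w))) := Ideal.Quotient.subsingleton_iff.2 rfl
    exact Nat.card_unique
  have h2 : Nat.card (powMonoidHom p : (Ow w)ˣ →* (Ow w)ˣ).ker = p := by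
    haveI : NeZero p := ⟨hp.out.ne_zero⟩
    have h3 := (Ow.isPrimitiveRoot_ofRootOfUnity w hζ).card_rootsOfUnity
    have h4 : (powMonoidHom p : (Ow w)ˣ →* (Ow w)ˣ).ker = rootsOfUnity p (Ow w) := by
      ext u
      rw [MonoidHom.mem_ker, mem_rootsOfUnity]
      rfl
    rw [h4]
    exact h3
  rw [h1, h2, one_mul]

omit hp in
/-- in a commutative group in which the `p`-th powers have prime index `p`, every element which is
not a `p`-th power generates the group modulo `p`-th powers -/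
theorem exists_eq_pow_mul_pow_of_index_eq {M : Type*} [CommGroup M] [hp' : Fact p.Prime]
    (h : (powMonoidHom p : M →* M).range.index = p) (a y : M) (ha : ∀ z : M, z ^ p ≠ a) :
    ∃ (i : ℕ) (z : M), y = a ^ i * z ^ p := by
  set R := (powMonoidHom p : M →* M).range with hR
  have hcard : Nat.card (M ⧸ R) = p := h
  have ha₀ : (QuotientGroup.mk a : M ⧸ R) ≠ 1 := by
    intro h'
    rw [QuotientGroup.eq_one_iff] at h'
    obtain ⟨z, hz⟩ := h'
    exact ha z hz
  obtain ⟨i, hi⟩ := mem_powers_of_prime_card hcard ha₀ (g' := (QuotientGroup.mk y : M ⧸ R))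
  have hi' : (QuotientGroup.mk (a ^ i) : M ⧸ R) = QuotientGroup.mk y := hi
  rw [QuotientGroup.eq] at hi'
  obtain ⟨z, hz⟩ := hi'
  refine ⟨i, z, ?_⟩
  have : z ^ p = (a ^ i)⁻¹ * y := hz
  rw [this, mul_inv_cancel_left]

/-- **Units modulo `p`-th powers at `w ∤ p`**: a unit `a` of `K_w` which is not a `p`-th power
generates the units modulo `p`-th powers. -/
theorem Kv.exists_eq_pow_mul_pow (w : Place q K) (hqp : q ≠ p) {ζ : K} (hζ : IsPrimitiveRoot ζ p)
    (a y : (Kv w)ˣ) (ha : ordW w a = 1) (hy : ordW w y = 1) (hap : ∀ z : (Kv w)ˣ, z ^ p ≠ a) :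
    ∃ (i : ℕ) (z : (Kv w)ˣ), ordW w z = 1 ∧ y = a ^ i * z ^ p := by
  set ι : (Ow w)ˣ →* (Kv w)ˣ := Units.map (algebraMap (Ow w) (Kv w) : Ow w →* Kv w) with hι
  have hker : (ordW w).ker = ι.range := ker_ord (A := Ow w) (K := Kv w)
  have ha' : a ∈ ι.range := by rw [← hker]; exact ha
  have hy' : y ∈ ι.range := by rw [← hker]; exact hy
  obtain ⟨a₀, rfl⟩ := ha'
  obtain ⟨y₀, rfl⟩ := hy'
  have ha₀ : ∀ z₀ : (Ow w)ˣ, z₀ ^ p ≠ a₀ := by
    intro z₀ hz₀
    apply hap (ι z₀)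
    rw [← map_pow, hz₀]
  obtain ⟨i, z₀, h5⟩ := exists_eq_pow_mul_pow_of_index_eq (Ow.index_range_pow w hqp hζ) a₀ y₀ ha₀
  refine ⟨i, ι z₀, ?_, ?_⟩
  · have : ι z₀ ∈ (ordW w).ker := by rw [hker]; exact ⟨z₀, rfl⟩
    exact this
  · rw [h5, map_mul, map_pow, map_pow]

end

end Fermat.Agent.CFT.Global
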